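import Fermat.Agent.TWGal.LocalSplit
import Fermat.Agent.Deform.MatRep
import Mathlib.Algebra.MonoidAlgebra.Basic

/-!
# Diamond operators on a deformation ring at a Taylor–Wiles prime
-/

set_option autoImplicit false
set_option linter.style.haveILetI false

noncomputable section

namespace Fermat.Agent.TWGal

open IsLocalRing Polynomial
open Fermat.Agent.Galois
open scoped Pointwise

variable {A : Type} [CommRing A] [IsLocalRing A] {k : Type} [Field k]

/-- Elements killed by the residual representation act residually trivially. -/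
theorem residual_apply_eq_one {ρbar : ResidualGaloisRep k} [Algebra k (ResidueField A)]
    {ρ : GaloisRepAdic A} (h : ρ.residual.IsEquiv (ρbar.baseChange (ResidueField A))) {σ : GalQ}
    (hσ : ρbar.ρ σ = 1) : ρ.residual.ρ σ = 1 := by
  obtain ⟨e⟩ := h
  refine LinearMap.ext fun x => e.toLinearEquiv.injective ?_
  rw [e.map_apply, show (ρbar.baseChange (ResidueField A)).ρ σ = 1 by
    change (ρbar.ρ σ).baseChange (ResidueField A) = 1
    rw [hσ, LinearMap.baseChange_one], Module.End.one_apply, Module.End.one_apply]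

/-- Residual characteristic polynomials of a deformation. -/
theorem charpoly_map_residue {ρbar : ResidualGaloisRep k} [Algebra k (ResidueField A)]
    {ρ : GaloisRepAdic A} (h : ρ.residual.IsEquiv (ρbar.baseChange (ResidueField A))) (σ : GalQ) :
    (LinearMap.charpoly (ρ.ρ σ)).map (residue A) =
      (LinearMap.charpoly (ρbar.ρ σ)).map (algebraMap k (ResidueField A)) := by
  obtain ⟨e⟩ := h
  rw [← LinearMap.charpoly_baseChange, ← ResidueField.algebraMap_eq,
    ← LinearMap.charpoly_baseChange]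
  have hc : (ρbar.baseChange (ResidueField A)).ρ σ = e.toLinearEquiv.conj (ρ.residual.ρ σ) := by
    refine LinearMap.ext fun x => ?_
    obtain ⟨y, rfl⟩ := e.toLinearEquiv.surjective x
    rw [LinearEquiv.conj_apply_apply, LinearEquiv.symm_apply_apply]
    exact (e.map_apply σ y).symm
  change LinearMap.charpoly (ρ.residual.ρ σ) =
    LinearMap.charpoly ((ρbar.baseChange (ResidueField A)).ρ σ)
  rw [hc, LinearEquiv.charpoly_conj]

/-- The local structure of a deformation at a Taylor–Wiles prime: a splitting at one place,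
with the inertia characters factored through `(ℤ/q)ˣ`. -/
structure Diamond (ρ : GaloisRepAdic A) (p q : ℕ) [NeZero q] where
  /-- the place -/
  P : ValuationSubring Qbar
  liesOver : P.LiesOverPrime q
  /-- a Frobenius element -/
  φ : P.decompositionSubgroup ℚ
  isFrobenius : P.IsFrobeniusAt φ.1 q
  /-- the splitting -/
  split : TWSplit ρ P
  residue_ne : residue A (split.char 0 φ : A) ≠ residue A (split.char 1 φ : A)
  /-- the diamond character -/
  δ : (ZMod q)ˣ →* Aˣ
  char_inertia : ∀ σ : P.decompositionSubgroup ℚ, σ.1 ∈ P.inertiaSubgroupIn ℚ →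
    split.char 0 σ = δ (cycMod q σ.1) ∧ split.char 1 σ = (δ (cycMod q σ.1))⁻¹
  δ_pow : ∀ u, δ u ^ p ^ padicValNat p (q - 1) = 1
  δ_residue : ∀ u, residue A (δ u : A) = 1

/-- Deformations with cyclotomic determinant have diamond characters at Taylor–Wiles primes; the
eigenvalue `α` of a chosen residual Frobenius marks the first character. -/
theorem exists_diamond [IsAdicComplete (maximalIdeal A) A] {p q : ℕ} [NeZero q] (hpp : p.Prime)
    (hq : q.Prime) (hdvd : p ∣ q - 1) {ρbar : ResidualGaloisRep k} [Algebra k (ResidueField A)]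
    (ρ : GaloisRepAdic A) (hres : ρ.residual.IsEquiv (ρbar.baseChange (ResidueField A)))
    (hdet : ρ.DetIsCyclotomic p) {P : ValuationSubring Qbar} (hP : P.LiesOverPrime q)
    (hur : ∀ σ ∈ P.inertiaSubgroupIn ℚ, ρbar.ρ σ = 1)
    {φ : GalQ} (hφ : P.IsFrobeniusAt φ q) {α β : k} (hαβ : α ≠ β)
    (hchar : LinearMap.charpoly (ρbar.ρ φ) = (X - C α) * (X - C β)) :
    ∃ D : Diamond ρ p q, D.P = P ∧ D.φ.1 = φ ∧
      residue A (D.split.char 0 D.φ : A) = algebraMap k (ResidueField A) α ∧
      residue A (D.split.char 1 D.φ : A) = algebraMap k (ResidueField A) β := by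
  have hur' : ∀ σ ∈ P.inertiaSubgroupIn ℚ, ρ.residual.ρ σ = 1 :=
    fun σ hσ => residual_apply_eq_one hres (hur σ hσ)
  have hne : algebraMap k (ResidueField A) α ≠ algebraMap k (ResidueField A) β :=
    (algebraMap k (ResidueField A)).injective.ne hαβ
  let φ' : P.decompositionSubgroup ℚ := ⟨φ, hφ.mem_decompositionSubgroup⟩
  obtain ⟨s, hs0, hs1⟩ := exists_twSplit ρ hP hq hdet.1 hdvd hur' φ' hφ hne (by
    rw [charpoly_map_residue hres, hchar, Polynomial.map_mul, Polynomial.map_sub,
      Polynomial.map_sub, Polynomial.map_X, Polynomial.map_C, Polynomial.map_C])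
  obtain ⟨δ, hδ, hδpow, hδres⟩ := s.exists_inertiaHom hP hq hpp hdet.1 hdvd hur' 0
  have hpq : q ≠ p := by
    intro h
    have h0 := hq.two_le
    have hpos : 0 < q - 1 := by omega
    have h1 : p ≤ q - 1 := Nat.le_of_dvd hpos hdvd
    omega
  refine ⟨⟨P, hP, φ', hφ, s, by rw [hs0, hs1]; exact hne, δ, fun σ hσ => ⟨hδ σ hσ, ?_⟩, hδpow,
    hδres⟩, rfl, rfl, hs0, hs1⟩
  rw [← hδ σ hσ, eq_inv_iff_mul_eq_one, mul_comm]
  exact s.char_mul_char_eq_one hP hq hpp hpq hdet σ hσ

namespace Diamond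

variable {ρ : GaloisRepAdic A} {p q : ℕ} [NeZero q] (D : Diamond ρ p q)

/-- The augmentation ideal of the diamond action. -/
def augIdeal : Ideal A := Ideal.span (Set.range fun u : (ZMod q)ˣ => (D.δ u : A) - 1)

theorem augIdeal_le_maximalIdeal : D.augIdeal ≤ maximalIdeal A := by
  refine Ideal.span_le.mpr ?_
  rintro _ ⟨u, rfl⟩
  rw [SetLike.mem_coe, ← residue_eq_zero_iff, map_sub, D.δ_residue, map_one, sub_self]

variable {B : Type} [CommRing B] [IsLocalRing B]

theorem augIdeal_le_ker_iff (f : A →+* B) :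
    D.augIdeal ≤ RingHom.ker f ↔ ∀ u, f (D.δ u : A) = 1 := by
  rw [augIdeal, Ideal.span_le]
  constructor
  · intro h u
    have h1 := h ⟨u, rfl⟩
    rwa [SetLike.mem_coe, RingHom.mem_ker, map_sub, map_one, sub_eq_zero] at h1
  · rintro h _ ⟨u, rfl⟩
    rw [SetLike.mem_coe, RingHom.mem_ker, map_sub, h, map_one, sub_self]

/-- A specialisation is unramified at `q` exactly when it kills the augmentation ideal. -/
theorem isUnramifiedAt_baseChange_iff (hq : q.Prime) (f : A →+* B) (hf : IsLocalHom f) :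
    (ρ.baseChangeAlong f hf).IsUnramifiedAt q ↔ D.augIdeal ≤ RingHom.ker f := by
  rw [augIdeal_le_ker_iff]
  let s := D.split.baseChange f hf
  constructor
  · intro h u
    obtain ⟨σ, hσ, rfl⟩ := cycMod_surjOn_inertia D.liesOver hq u
    let σ' : D.P.decompositionSubgroup ℚ := ⟨σ, inertia_le_decomposition _ hσ⟩
    have h1 := ((s.ρ_eq_one_iff σ').mp (h D.P D.liesOver σ hσ)).1
    rw [← (D.char_inertia σ' hσ).1]
    exact congrArg Units.val h1
  · intro h P' hP' σ hσ
    obtain ⟨τ, rfl⟩ := exists_smul_eq D.liesOver hP' hq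
    have hσ' := mem_inertia_smul_iff.mp hσ
    let σ' : D.P.decompositionSubgroup ℚ :=
      ⟨τ⁻¹ * σ * τ, inertia_le_decomposition _ hσ'⟩
    have h1 : (ρ.baseChangeAlong f hf).ρ (τ⁻¹ * σ * τ) = 1 := by
      refine (s.ρ_eq_one_iff σ').mpr ⟨Units.ext ?_, Units.ext ?_⟩
      · rw [D.split.baseChange_char, (D.char_inertia σ' hσ').1, h, Units.val_one]
      · rw [D.split.baseChange_char, (D.char_inertia σ' hσ').2, ← map_inv, h, Units.val_one]
    calc (ρ.baseChangeAlong f hf).ρ σ
        = (ρ.baseChangeAlong f hf).ρ (τ * (τ⁻¹ * σ * τ) * τ⁻¹) := by group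
      _ = 1 := by rw [map_mul, map_mul, h1, mul_one, ← map_mul, mul_inv_cancel, map_one]

end Diamond

/-- The joint diamond character of finitely many primes. -/
def diamondHom {r : ℕ} {qv : Fin r → ℕ} [∀ i, NeZero (qv i)] {ρ : GaloisRepAdic A} {p : ℕ}
    (D : ∀ i, Diamond ρ p (qv i)) : (∀ i, (ZMod (qv i))ˣ) →* Aˣ :=
  ∏ i, (D i).δ.comp (Pi.evalMonoidHom (fun i => (ZMod (qv i))ˣ) i)

/-- The `𝒪[Δ_Q]`-algebra structure on a deformation ring. -/
def diamondAlgHom (𝒪 : Type) [CommRing 𝒪] [Algebra 𝒪 A] {r : ℕ} {qv : Fin r → ℕ}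
    [∀ i, NeZero (qv i)] {ρ : GaloisRepAdic A} {p : ℕ} (D : ∀ i, Diamond ρ p (qv i)) :
    MonoidAlgebra 𝒪 (∀ i, (ZMod (qv i))ˣ) →ₐ[𝒪] A :=
  MonoidAlgebra.lift 𝒪 A (∀ i, (ZMod (qv i))ˣ) ((Units.coeHom A).comp (diamondHom D))

end Fermat.Agent.TWGal
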