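import Fermat.Agent.TWGal.Diamond
import Fermat.Prelude.Def_GaloisRep_DeformationRingData
import Fermat.Prelude.Thm_IsLocalRing_isAdicComplete_of_module_finite

/-!
# `R_Q / augmentation = R_∅`
-/

set_option autoImplicit false
set_option linter.style.haveILetI false

noncomputable section

namespace Fermat.Agent.TWGal

open IsLocalRing
open Fermat.Agent.Deform

variable {A : Type} [CommRing A] [IsLocalRing A] {B : Type} [CommRing B] [IsLocalRing B]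
  {C : Type} [CommRing C] [IsLocalRing C]

/-- Base change in two steps. -/
theorem baseChangeAlong_comp (ρ : GaloisRepAdic A) (f : A →+* B) (hf : IsLocalHom f) (g : B →+* C)
    (hg : IsLocalHom g) (hgf : IsLocalHom (g.comp f)) :
    ((ρ.baseChangeAlong f hf).baseChangeAlong g hg).IsEquiv
      (ρ.baseChangeAlong (g.comp f) hgf) := by
  obtain ⟨b⟩ := finBasisV ρ
  obtain ⟨e⟩ := isEquiv_toAdic_matOf ρ b
  obtain ⟨e1⟩ := baseChange_toAdic f hf (matOf ρ b) (isContRep_matOf ρ b)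
  have h1 : ((ρ.baseChangeAlong f hf).baseChangeAlong g hg).IsEquiv
      (toAdic (mapRep g (mapRep f (matOf ρ b)))
        (isContRep_mapRep g hg (isContRep_mapRep f hf (isContRep_matOf ρ b)))) :=
    isEquiv_trans' ⟨((e.baseChangeAlong f hf).trans e1).baseChangeAlong g hg⟩
      (baseChange_toAdic g hg _ _)
  have h2 : (ρ.baseChangeAlong (g.comp f) hgf).IsEquiv
      (toAdic (mapRep (g.comp f) (matOf ρ b))
        (isContRep_mapRep _ hgf (isContRep_matOf ρ b))) :=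
    isEquiv_trans' ⟨e.baseChangeAlong _ hgf⟩ (baseChange_toAdic _ hgf _ _)
  exact isEquiv_trans' h1 (isEquiv_symm' h2)

/-- Base change along the identity. -/
theorem baseChangeAlong_id (ρ : GaloisRepAdic A) (h : IsLocalHom (RingHom.id A)) :
    (ρ.baseChangeAlong (RingHom.id A) h).IsEquiv ρ := by
  obtain ⟨b⟩ := finBasisV ρ
  obtain ⟨e⟩ := isEquiv_toAdic_matOf ρ b
  obtain ⟨e1⟩ := baseChange_toAdic (RingHom.id A) h (matOf ρ b) (isContRep_matOf ρ b)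
  rw [toAdic_congr _ (isContRep_matOf ρ b) (matRep_ext fun σ i j => rfl :
    mapRep (RingHom.id A) (matOf ρ b) = matOf ρ b)] at e1
  exact ⟨((e.baseChangeAlong _ h).trans e1).trans e.symm⟩

variable {𝒪 : Type} [CommRing 𝒪] [IsLocalRing 𝒪] [Algebra 𝒪 A] [IsLocalHom (algebraMap 𝒪 A)]
  [Algebra 𝒪 B] [IsLocalHom (algebraMap 𝒪 B)]

/-- The residual representation of a specialisation of a deformation. -/
theorem residual_baseChangeAlong_isEquiv {ρbar : ResidualGaloisRep (ResidueField 𝒪)}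
    (ρ : GaloisRepAdic A)
    (h : ρ.residual.IsEquiv (ρbar.baseChangeAlong (ResidueField.map (algebraMap 𝒪 A))))
    (f : A →ₐ[𝒪] B) (hf : IsLocalHom (f : A →+* B)) :
    (ρ.baseChangeAlong (f : A →+* B) hf).residual.IsEquiv
      (ρbar.baseChangeAlong (ResidueField.map (algebraMap 𝒪 B))) := by
  letI : Algebra (ResidueField 𝒪) (ResidueField A) :=
    (ResidueField.map (algebraMap 𝒪 A)).toAlgebra
  letI : Algebra (ResidueField 𝒪) (ResidueField B) :=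
    (ResidueField.map (algebraMap 𝒪 B)).toAlgebra
  obtain ⟨M, hM, ⟨e⟩, hMres⟩ := exists_lift_of_residual_isEquiv ρbar ρ h
  obtain ⟨e1⟩ := baseChange_toAdic (f : A →+* B) hf M hM
  have h2 : (toAdic (mapRep (f : A →+* B) M) (isContRep_mapRep _ hf hM)).residual.IsEquiv
      (ρbar.baseChange (ResidueField B)) := by
    refine residual_isEquiv_baseChange ρbar _ _ fun σ i j => ?_
    haveI := hf
    rw [mapRep_apply, ← ResidueField.map_residue, hMres]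
    obtain ⟨x, hx⟩ := residue_surjective (barMat ρbar σ i j)
    rw [← hx]
    change ResidueField.map (f : A →+* B) (ResidueField.map (algebraMap 𝒪 A) (residue 𝒪 x)) =
      ResidueField.map (algebraMap 𝒪 B) (residue 𝒪 x)
    rw [ResidueField.map_residue, ResidueField.map_residue, ResidueField.map_residue]
    exact congrArg (residue B) (f.commutes x)
  obtain ⟨e2⟩ := h2
  exact ⟨ResidualGaloisRep.Equiv.trans
    ((e.baseChangeAlong (f : A →+* B) hf).trans e1).residual e2⟩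

/-- **`R_Q / J = R_∅`.** If the smaller deformation problem sits inside the larger one, the
larger universal deformation has the smaller type over `R_Q / J`, and every map to the smaller
universal ring inducing its deformation kills `J`, then the canonical map is surjective with
kernel `J`. -/
theorem exists_surjective_ker_eq {𝒪 : Type} [CommRing 𝒪] [IsDomain 𝒪]
    [IsDiscreteValuationRing 𝒪] [IsAdicComplete (maximalIdeal 𝒪) 𝒪]
    {ρbar : ResidualGaloisRep (ResidueField 𝒪)}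
    {𝒟Q 𝒟₀ : ∀ ⦃A : Type⦄ [CommRing A] [IsLocalRing A] [Algebra 𝒪 A], GaloisRepAdic A → Prop}
    (DQ : GaloisRep.DeformationRingData 𝒪 ρbar 𝒟Q)
    (D₀ : GaloisRep.DeformationRingData 𝒪 ρbar 𝒟₀)
    (J : Ideal DQ.R) (hJ : J ≤ maximalIdeal DQ.R)
    (hle : ∀ ⦃A : Type⦄ [CommRing A] [IsLocalRing A] [Algebra 𝒪 A] (ρ : GaloisRepAdic A),
      𝒟₀ ρ → 𝒟Q ρ)
    (hkill : ∀ (f : DQ.R →ₐ[𝒪] D₀.R) (hf : IsLocalHom (f : DQ.R →+* D₀.R)),
      (DQ.ρ.baseChangeAlong (f : DQ.R →+* D₀.R) hf).IsEquiv D₀.ρ →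
        J ≤ RingHom.ker (f : DQ.R →+* D₀.R))
    (hquot : ∀ [IsLocalRing (DQ.R ⧸ J)]
      (hmk : IsLocalHom ((Ideal.Quotient.mkₐ 𝒪 J : DQ.R →ₐ[𝒪] DQ.R ⧸ J) : DQ.R →+* DQ.R ⧸ J)),
      𝒟₀ (DQ.ρ.baseChangeAlong
        ((Ideal.Quotient.mkₐ 𝒪 J : DQ.R →ₐ[𝒪] DQ.R ⧸ J) : DQ.R →+* DQ.R ⧸ J) hmk)) :
    ∃ π : DQ.R →ₐ[𝒪] D₀.R, Function.Surjective π ∧ RingHom.ker (π : DQ.R →+* D₀.R) = J ∧
      ∃ hπ : IsLocalHom (π : DQ.R →+* D₀.R),
        (DQ.ρ.baseChangeAlong (π : DQ.R →+* D₀.R) hπ).IsEquiv D₀.ρ := by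
  obtain ⟨π, ⟨hπ, heπ⟩, -⟩ :=
    DQ.universal D₀.R D₀.residue_surjective D₀.ρ (hle _ D₀.isOfType) D₀.residual_isEquiv
  have hker := hkill π hπ heπ
  haveI : Nontrivial (DQ.R ⧸ J) := Ideal.Quotient.nontrivial_iff.mpr fun h =>
    (maximalIdeal.isMaximal DQ.R).ne_top (top_le_iff.mp (h ▸ hJ))
  haveI : IsLocalRing (DQ.R ⧸ J) :=
    IsLocalRing.of_surjective' (Ideal.Quotient.mk J) Ideal.Quotient.mk_surjective
  haveI : IsLocalHom (Ideal.Quotient.mk J) :=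
    IsLocalHom.of_surjective _ Ideal.Quotient.mk_surjective
  haveI : IsLocalHom (algebraMap DQ.R (DQ.R ⧸ J)) := ‹IsLocalHom (Ideal.Quotient.mk J)›
  haveI : Module.Finite DQ.R (DQ.R ⧸ J) :=
    Module.Finite.of_surjective (Ideal.Quotient.mkₐ DQ.R J).toLinearMap Ideal.Quotient.mk_surjective
  haveI : IsAdicComplete (maximalIdeal (DQ.R ⧸ J)) (DQ.R ⧸ J) :=
    IsLocalRing.isAdicComplete_of_module_finite (𝒪 := DQ.R)
  haveI : IsLocalHom (algebraMap 𝒪 (DQ.R ⧸ J)) := by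
    rw [IsScalarTower.algebraMap_eq 𝒪 DQ.R (DQ.R ⧸ J)]
    exact RingHom.isLocalHom_comp _ _
  let m : DQ.R →ₐ[𝒪] DQ.R ⧸ J := Ideal.Quotient.mkₐ 𝒪 J
  have hm : IsLocalHom (m : DQ.R →+* DQ.R ⧸ J) := ‹IsLocalHom (Ideal.Quotient.mk J)›
  have hsurj : Function.Surjective (residue (DQ.R ⧸ J) ∘ algebraMap 𝒪 (DQ.R ⧸ J)) := by
    intro y
    obtain ⟨x, rfl⟩ := residue_surjective y
    obtain ⟨x, rfl⟩ := Ideal.Quotient.mk_surjective x
    obtain ⟨r, hr⟩ := DQ.residue_surjective (residue DQ.R x)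
    refine ⟨r, ?_⟩
    have := congrArg (ResidueField.map (Ideal.Quotient.mk J)) hr
    simpa [ResidueField.map_residue] using this
  have hresid := residual_baseChangeAlong_isEquiv DQ.ρ DQ.residual_isEquiv m hm
  obtain ⟨ψ, ⟨hψ, heψ⟩, -⟩ := D₀.universal (DQ.R ⧸ J) hsurj _ (hquot hm) hresid
  -- the composite to `R_Q / J` is the quotient map
  have hρ' : 𝒟₀ (DQ.ρ.baseChangeAlong (m : DQ.R →+* DQ.R ⧸ J) hm) := hquot hm
  have hψπ : IsLocalHom ((ψ.comp π : DQ.R →ₐ[𝒪] DQ.R ⧸ J) : DQ.R →+* DQ.R ⧸ J) := by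
    haveI := hψ
    haveI := hπ
    exact RingHom.isLocalHom_comp (ψ : D₀.R →+* DQ.R ⧸ J) (π : DQ.R →+* D₀.R)
  have hcomp : m = ψ.comp π := by
    refine (DQ.universal (DQ.R ⧸ J) hsurj _ (hle _ hρ') hresid).unique
      ⟨hm, ⟨GaloisRepAdic.Equiv.refl _⟩⟩ ⟨hψπ, ?_⟩
    obtain ⟨e⟩ := heπ
    exact isEquiv_trans' (isEquiv_symm' (baseChangeAlong_comp DQ.ρ _ hπ _ hψ hψπ))
      (isEquiv_trans' ⟨e.baseChangeAlong _ hψ⟩ heψ)
  have hker' : ∀ x ∈ J, π x = 0 := fun x hx => RingHom.mem_ker.mp (hker hx)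
  let π' : DQ.R ⧸ J →ₐ[𝒪] D₀.R := Ideal.Quotient.liftₐ J π hker'
  have hπ' : IsLocalHom (π' : DQ.R ⧸ J →+* D₀.R) := by
    refine ⟨fun y hy => ?_⟩
    obtain ⟨x, rfl⟩ := Ideal.Quotient.mk_surjective y
    have hx : IsUnit ((π : DQ.R →+* D₀.R) x) := hy
    exact (hπ.map_nonunit x hx).map _
  have hπψ : IsLocalHom ((π'.comp ψ : D₀.R →ₐ[𝒪] D₀.R) : D₀.R →+* D₀.R) := by
    haveI := hψ
    haveI := hπ'
    exact RingHom.isLocalHom_comp (π' : DQ.R ⧸ J →+* D₀.R) (ψ : D₀.R →+* DQ.R ⧸ J)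
  have hid : π'.comp ψ = AlgHom.id 𝒪 D₀.R := by
    haveI hidl : IsLocalHom ((AlgHom.id 𝒪 D₀.R : D₀.R →ₐ[𝒪] D₀.R) : D₀.R →+* D₀.R) :=
      ⟨fun _ h => h⟩
    refine (D₀.universal D₀.R D₀.residue_surjective D₀.ρ D₀.isOfType D₀.residual_isEquiv).unique
      ⟨hπψ, ?_⟩ ⟨hidl, baseChangeAlong_id D₀.ρ hidl⟩
    have h1 : IsLocalHom ((π' : DQ.R ⧸ J →+* D₀.R).comp (m : DQ.R →+* DQ.R ⧸ J)) := hπ
    obtain ⟨e⟩ := heψ
    refine isEquiv_trans' (isEquiv_symm' (baseChangeAlong_comp D₀.ρ _ hψ _ hπ' hπψ)) ?_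
    refine isEquiv_trans' ⟨e.baseChangeAlong _ hπ'⟩ ?_
    exact isEquiv_trans' (baseChangeAlong_comp DQ.ρ _ hm _ hπ' h1) heπ
  refine ⟨π, fun y => ?_, le_antisymm (fun x hx => ?_) hker, hπ, heπ⟩
  · obtain ⟨x, hx⟩ := Ideal.Quotient.mk_surjective (ψ y)
    refine ⟨x, ?_⟩
    have h := AlgHom.congr_fun hid y
    rw [AlgHom.comp_apply, ← hx] at h
    exact h
  · have h := AlgHom.congr_fun hcomp x
    rw [AlgHom.comp_apply, show π x = 0 from hx, map_zero] at h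
    exact Ideal.Quotient.eq_zero_iff_mem.mp h

end Fermat.Agent.TWGal
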