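import Fermat.Agent.TWGal.Augmentation
import Fermat.Agent.Tangent.Conditions
import Fermat.Prelude.Def_GaloisRep_StrictOrdinary
import Fermat.Prelude.Def_GaloisRep_Flat

/-!
# The Taylor–Wiles deformation rings: `𝒪[Δ_Q] → R_Q` and `R_Q / aug = R_∅`
-/

set_option autoImplicit false
set_option linter.style.haveILetI false

noncomputable section

namespace Fermat.Agent.TWGal

open IsLocalRing Polynomial
open Fermat.Agent.Galois

variable {𝒪 : Type} [CommRing 𝒪] [IsDomain 𝒪] [IsDiscreteValuationRing 𝒪]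
  [IsAdicComplete (maximalIdeal 𝒪) 𝒪] {ρbar : ResidualGaloisRep (ResidueField 𝒪)}
  {𝒟Q 𝒟₀ : ∀ ⦃A : Type⦄ [CommRing A] [IsLocalRing A] [Algebra 𝒪 A], GaloisRepAdic A → Prop}

/-- A universal deformation ring with cyclotomic determinant has a diamond character at every
Taylor–Wiles prime. -/
theorem exists_diamond_universal (DQ : GaloisRep.DeformationRingData 𝒪 ρbar 𝒟Q) {p q : ℕ}
    [NeZero q] (hpp : p.Prime) (hq : q.Prime) (hdvd : p ∣ q - 1)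
    (hdet : DQ.ρ.DetIsCyclotomic p) (hur : ρbar.IsUnramifiedAt q)
    (heig : ∀ P : ValuationSubring (AlgebraicClosure ℚ), P.LiesOverPrime q →
      ∀ φ : AlgebraicClosure ℚ ≃ₐ[ℚ] AlgebraicClosure ℚ, P.IsFrobeniusAt φ q →
        ∃ α β : ResidueField 𝒪, α ≠ β ∧ LinearMap.charpoly (ρbar.ρ φ) = (X - C α) * (X - C β)) :
    Nonempty (Diamond DQ.ρ p q) := by
  letI : Algebra (ResidueField 𝒪) (ResidueField DQ.R) :=
    (ResidueField.map (algebraMap 𝒪 DQ.R)).toAlgebra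
  obtain ⟨P, φ, hP, hφ⟩ := exists_place_isFrobeniusAt hq
  obtain ⟨α, β, hαβ, hchar⟩ := heig P hP φ hφ
  obtain ⟨D, -⟩ := exists_diamond (ρbar := ρbar) hpp hq hdvd DQ.ρ DQ.residual_isEquiv hdet hP
    (hur P hP) hφ hαβ hchar
  exact ⟨D⟩

/-- The augmentation ideal of all the diamond characters. -/
def augIdealQ {A : Type} [CommRing A] [IsLocalRing A] {ρ : GaloisRepAdic A} {p r : ℕ}
    {qv : Fin r → ℕ} [∀ i, NeZero (qv i)] (D : ∀ i, Diamond ρ p (qv i)) : Ideal A :=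
  ⨆ i, (D i).augIdeal

/-- **`R_Q / aug ≅ R_∅`.** -/
theorem exists_surjective_ker_eq_augIdeal (DQ : GaloisRep.DeformationRingData 𝒪 ρbar 𝒟Q)
    (D₀ : GaloisRep.DeformationRingData 𝒪 ρbar 𝒟₀) {p r : ℕ} {qv : Fin r → ℕ}
    [∀ i, NeZero (qv i)] (hqv : ∀ i, (qv i).Prime) (D : ∀ i, Diamond DQ.ρ p (qv i))
    (hiff : ∀ ⦃A : Type⦄ [CommRing A] [IsLocalRing A] [Algebra 𝒪 A] (ρ : GaloisRepAdic A),
      𝒟₀ ρ ↔ 𝒟Q ρ ∧ ∀ i, ρ.IsUnramifiedAt (qv i))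
    (hbc : ∀ ⦃B : Type⦄ [CommRing B] [IsLocalRing B] [Algebra 𝒪 B] (f : DQ.R →ₐ[𝒪] B)
      (hf : IsLocalHom (f : DQ.R →+* B)), Function.Surjective f →
        𝒟Q (DQ.ρ.baseChangeAlong (f : DQ.R →+* B) hf)) :
    ∃ π : DQ.R →ₐ[𝒪] D₀.R, Function.Surjective π ∧
      RingHom.ker (π : DQ.R →+* D₀.R) = augIdealQ D ∧
      ∃ hπ : IsLocalHom (π : DQ.R →+* D₀.R),
        (DQ.ρ.baseChangeAlong (π : DQ.R →+* D₀.R) hπ).IsEquiv D₀.ρ := by
  refine exists_surjective_ker_eq DQ D₀ (augIdealQ D)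
    (iSup_le fun i => (D i).augIdeal_le_maximalIdeal) (fun A _ _ _ ρ hρ => ((hiff ρ).mp hρ).1)
    (fun f hf he => iSup_le fun i => ((D i).isUnramifiedAt_baseChange_iff (hqv i) _ hf).mp
      (Tangent.isUnramifiedAt_of_isEquiv (he.map (·.symm)) (((hiff _).mp D₀.isOfType).2 i)))
    (fun hmk => (hiff _).mpr ⟨hbc _ hmk Ideal.Quotient.mk_surjective, fun i =>
      ((D i).isUnramifiedAt_baseChange_iff (hqv i) _ hmk).mpr ?_⟩)
  intro x hx
  exact Ideal.Quotient.eq_zero_iff_mem.mpr (le_iSup (fun i => (D i).augIdeal) i hx)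

variable {p : ℕ} {S T : Finset ℕ} {r : ℕ} {qv : Fin r → ℕ} [∀ i, NeZero (qv i)]

theorem unramified_outside_iff {A : Type} [CommRing A] [IsLocalRing A] (ρ : GaloisRepAdic A)
    (hqv : ∀ i, (qv i).Prime) (hS : ∀ i, qv i ∉ S) :
    (∀ q : ℕ, q.Prime → q ∉ S → ρ.IsUnramifiedAt q) ↔
      (∀ q : ℕ, q.Prime → q ∉ S ∪ Finset.univ.image qv → ρ.IsUnramifiedAt q) ∧
        ∀ i, ρ.IsUnramifiedAt (qv i) := by
  classical
  refine ⟨fun h => ⟨fun q hq hqS => h q hq fun h' => hqS (Finset.mem_union_left _ h'),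
    fun i => h _ (hqv i) (hS i)⟩, fun h q hq hqS => ?_⟩
  by_cases hmem : q ∈ Finset.univ.image qv
  · obtain ⟨i, -, rfl⟩ := Finset.mem_image.mp hmem
    exact h.2 i
  · exact h.1 q hq fun h' => (Finset.mem_union.mp h').elim hqS hmem

/-- `R_Q / aug ≅ R_∅` for the strictly ordinary problems. -/
theorem exists_surjective_ker_eq_augIdeal_strictOrdinary
    (DQ : GaloisRep.DeformationRingData 𝒪 ρbar (fun _A _ _ _ ρ =>
      GaloisRep.strictOrdinaryCondition 𝒪 p (S ∪ Finset.univ.image qv) ρ ∧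
        ∀ q ∈ T, q.Prime → q ≠ p → ρ.IsUnipotentOnInertiaAt q))
    (D₀ : GaloisRep.DeformationRingData 𝒪 ρbar (fun _A _ _ _ ρ =>
      GaloisRep.strictOrdinaryCondition 𝒪 p S ρ ∧
        ∀ q ∈ T, q.Prime → q ≠ p → ρ.IsUnipotentOnInertiaAt q))
    (hqv : ∀ i, (qv i).Prime) (hS : ∀ i, qv i ∉ S) (D : ∀ i, Diamond DQ.ρ p (qv i)) :
    ∃ π : DQ.R →ₐ[𝒪] D₀.R, Function.Surjective π ∧
      RingHom.ker (π : DQ.R →+* D₀.R) = augIdealQ D ∧
      ∃ hπ : IsLocalHom (π : DQ.R →+* D₀.R),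
        (DQ.ρ.baseChangeAlong (π : DQ.R →+* D₀.R) hπ).IsEquiv D₀.ρ := by
  refine exists_surjective_ker_eq_augIdeal DQ D₀ hqv D (fun A _ _ _ ρ => ?_)
    (fun B _ _ _ f hf _ => ?_)
  · simp only [GaloisRep.strictOrdinaryCondition, unramified_outside_iff ρ hqv hS]
    tauto
  · obtain ⟨⟨h1, h2, h3⟩, h4⟩ := DQ.isOfType
    exact ⟨⟨Tangent.detIsCyclotomic_baseChangeAlong _ hf h1,
      Tangent.isStrictOrdinaryAt_baseChangeAlong _ hf h2,
      fun q hq hqS => Tangent.isUnramifiedAt_baseChangeAlong _ hf (h3 q hq hqS)⟩,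
      fun q hqT hq hqp => Tangent.isUnipotentOnInertiaAt_baseChangeAlong _ hf (h4 q hqT hq hqp)⟩

/-- `R_Q / aug ≅ R_∅` for the flat problems. -/
theorem exists_surjective_ker_eq_augIdeal_flat
    (DQ : GaloisRep.DeformationRingData 𝒪 ρbar (fun _A _ _ _ ρ =>
      GaloisRep.flatCondition 𝒪 p (S ∪ Finset.univ.image qv) ρ ∧
        ∀ q ∈ T, q.Prime → q ≠ p → ρ.IsUnipotentOnInertiaAt q))
    (D₀ : GaloisRep.DeformationRingData 𝒪 ρbar (fun _A _ _ _ ρ =>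
      GaloisRep.flatCondition 𝒪 p S ρ ∧
        ∀ q ∈ T, q.Prime → q ≠ p → ρ.IsUnipotentOnInertiaAt q))
    (hqv : ∀ i, (qv i).Prime) (hS : ∀ i, qv i ∉ S) (D : ∀ i, Diamond DQ.ρ p (qv i)) :
    ∃ π : DQ.R →ₐ[𝒪] D₀.R, Function.Surjective π ∧
      RingHom.ker (π : DQ.R →+* D₀.R) = augIdealQ D ∧
      ∃ hπ : IsLocalHom (π : DQ.R →+* D₀.R),
        (DQ.ρ.baseChangeAlong (π : DQ.R →+* D₀.R) hπ).IsEquiv D₀.ρ := by
  refine exists_surjective_ker_eq_augIdeal DQ D₀ hqv D (fun A _ _ _ ρ => ?_)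
    (fun B _ _ _ f hf hsur => ?_)
  · simp only [GaloisRep.flatCondition, unramified_outside_iff ρ hqv hS]
    tauto
  · obtain ⟨⟨h1, h2, h3⟩, h4⟩ := DQ.isOfType
    exact ⟨⟨Tangent.detIsCyclotomic_baseChangeAlong _ hf h1,
      Tangent.isFlatAt_baseChangeAlong _ hf hsur h2,
      fun q hq hqS => Tangent.isUnramifiedAt_baseChangeAlong _ hf (h3 q hq hqS)⟩,
      fun q hqT hq hqp => Tangent.isUnipotentOnInertiaAt_baseChangeAlong _ hf (h4 q hqT hq hqp)⟩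

end Fermat.Agent.TWGal
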