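import Fermat.Agent.Galois.Cyclotomic

/-!
# Tame inertia at a finite level

For `A` over `q`, the tame character of inertia at a finite normal level has cyclic image,
its kernel has `q`-power exponent, and Frobenius acts on it by the `q`-th power. Consequently, for
a finite level homomorphism whose inertia image has no `q`-torsion, that image is generated by one
element `t`, and `F t F⁻¹ = t ^ q`; if moreover `F` commutes with `t`, the restriction to inertia
factors through the action on `q`-th roots of unity.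
-/

set_option autoImplicit false
set_option linter.style.haveILetI false

noncomputable section

namespace Fermat.Agent.TWGal

open IsLocalRing
open Fermat.Agent.Galois

section Basic

variable {A : ValuationSubring Qbar} {q : ℕ} {σ τ : GalQ}

theorem comap_mem_nonunits_iff (F : IntermediateField ℚ Qbar) (x : F) :
    x ∈ (A.comap (algebraMap F Qbar)).nonunits ↔ (x : Qbar) ∈ A.nonunits := by
  rw [ValuationSubring.mem_nonunits_iff_or, ValuationSubring.mem_nonunits_iff_or,
    ValuationSubring.mem_comap, map_inv₀]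
  exact or_congr (map_eq_zero (algebraMap F Qbar)).symm Iff.rfl

theorem valuation_apply_le_iff (hσ : σ ∈ A.decompositionSubgroup ℚ) (x y : Qbar) :
    A.valuation (σ x) ≤ A.valuation (σ y) ↔ A.valuation x ≤ A.valuation y := by
  rcases eq_or_ne y 0 with rfl | hy
  · simp
  have hy' : σ y ≠ 0 := (map_ne_zero σ).mpr hy
  have h : ∀ a b : Qbar, b ≠ 0 → (A.valuation a ≤ A.valuation b ↔ a / b ∈ A) := fun a b hb => by
    rw [← A.valuation_le_one_iff, map_div₀,
      div_le_one₀ ((A.valuation.pos_iff).mpr hb)]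
  rw [h _ _ hy', h _ _ hy, ← map_div₀]
  exact (mem_decomposition_iff.mp hσ) _

theorem valuation_apply_lt_one (hσ : σ ∈ A.decompositionSubgroup ℚ) {x : Qbar}
    (hx : A.valuation x < 1) : A.valuation (σ x) < 1 :=
  (decomposition_apply_mem_nonunits_iff hσ).mpr hx

theorem exists_fraction (hA : A.LiesOverPrime q) (hq : q.Prime) (F : IntermediateField ℚ Qbar)
    [FiniteDimensional ℚ F] {x : Qbar} (hxF : x ∈ F) (hx : x ∈ A) :
    ∃ a b : F, IsIntegral ℤ a ∧ IsIntegral ℤ b ∧ A.valuation (b : Qbar) = 1 ∧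
      x * (b : Qbar) = a := by
  have : CharZero F := inferInstance
  have : Algebra.IsAlgebraic ℚ F := Algebra.IsAlgebraic.of_finite ℚ F
  have hAF : (A.comap (algebraMap F Qbar)).LiesOverPrime q := by
    change ((q : F)) ∈ _
    rw [comap_mem_nonunits_iff]
    exact hA
  obtain ⟨a, b, ha, hb, hbA, hab⟩ := place_exists_mul_eq hAF hq (x := (⟨x, hxF⟩ : F))
    (ValuationSubring.mem_comap.mpr hx)
  refine ⟨a, b, ha, hb, ?_, congrArg (algebraMap F Qbar) hab⟩
  rw [comap_mem_nonunits_iff] at hbA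
  exact ((A.valuation_le_one_iff _).mpr (place_mem_of_isIntegral A
    (hb.map (IsScalarTower.toAlgHom ℤ F Qbar)))).antisymm (not_lt.mp hbA)

/-- The integers of a level, bounded by a given value, as an ideal. -/
def levelBallIdeal (A : ValuationSubring Qbar) (F : IntermediateField ℚ Qbar) (c : Qbar) :
    Ideal (integralClosure ℤ F) where
  carrier := {b | A.valuation (((b : F) : Qbar)) ≤ A.valuation c}
  add_mem' {a b} ha hb := by
    simp only [Set.mem_ofPred_eq, AddMemClass.coe_add, IntermediateField.coe_add] at *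
    exact (A.valuation.map_add _ _).trans (max_le ha hb)
  zero_mem' := by simp
  smul_mem' a b hb := by
    simp only [Set.mem_ofPred_eq, smul_eq_mul, MulMemClass.coe_mul, IntermediateField.coe_mul,
      map_mul] at *
    exact (mul_le_of_le_one_left' ((A.valuation_le_one_iff _).mpr (place_mem_of_isIntegral A
      (a.2.map (IsScalarTower.toAlgHom ℤ F Qbar))))).trans hb

theorem isNoetherianRing_level (F : IntermediateField ℚ Qbar) [FiniteDimensional ℚ F] :
    IsNoetherianRing (integralClosure ℤ F) := by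
  have : NumberField F := NumberField.of_module_finite ℚ F
  exact inferInstanceAs (IsNoetherianRing (NumberField.RingOfIntegers F))

/-- A uniformizer of a level. -/
theorem exists_uniformizer (hA : A.LiesOverPrime q) (hq : q.Prime)
    (F : IntermediateField ℚ Qbar) [FiniteDimensional ℚ F] :
    ∃ π : Qbar, π ∈ F ∧ π ≠ 0 ∧ A.valuation π < 1 ∧
      ∀ x ∈ F, A.valuation x < 1 → A.valuation x ≤ A.valuation π := by
  classical
  have := isNoetherianRing_level F
  let Q : Ideal (integralClosure ℤ F) :=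
    { carrier := {b | A.valuation (((b : F) : Qbar)) < 1}
      add_mem' := fun {a b} ha hb => by
        simp only [Set.mem_ofPred_eq, AddMemClass.coe_add, IntermediateField.coe_add] at *
        exact A.valuation.map_add_lt ha hb
      zero_mem' := by simp
      smul_mem' := fun a b hb => by
        simp only [Set.mem_ofPred_eq, smul_eq_mul, MulMemClass.coe_mul, IntermediateField.coe_mul,
          map_mul] at *
        exact (mul_le_of_le_one_left' ((A.valuation_le_one_iff _).mpr (place_mem_of_isIntegral A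
          (a.2.map (IsScalarTower.toAlgHom ℤ F Qbar))))).trans_lt hb }
  obtain ⟨s, hs⟩ := IsNoetherian.noetherian Q
  have hmemQ : ∀ b ∈ s, b ∈ Q := fun b hb => hs ▸ Submodule.subset_span hb
  have hsne : s.Nonempty := by
    rcases s.eq_empty_or_nonempty with rfl | h
    · have hq' : ((q : ℕ) : integralClosure ℤ F) ∈ Q := by
        change A.valuation ((((q : ℕ) : integralClosure ℤ F) : F) : Qbar) < 1
        rw [SubringClass.coe_natCast]
        simpa using (A.mem_nonunits_iff).mp hA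
      rw [← hs, Finset.coe_empty, Submodule.span_empty, Submodule.mem_bot] at hq'
      exact absurd hq' (Nat.cast_ne_zero.mpr hq.ne_zero)
    · exact h
  obtain ⟨g, hg, hmax⟩ := s.exists_max_image (fun b => A.valuation ((b : F) : Qbar)) hsne
  have hbound : ∀ b ∈ Q, A.valuation ((b : F) : Qbar) ≤ A.valuation ((g : F) : Qbar) := by
    intro b hb
    have hb' : b ∈ Submodule.span (integralClosure ℤ F) (s : Set (integralClosure ℤ F)) := hs ▸ hb
    exact Submodule.span_le (p := levelBallIdeal A F ((g : F) : Qbar)).mpr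
      (fun c hc => hmax c hc) hb'
  have hall : ∀ x ∈ F, A.valuation x < 1 → A.valuation x ≤ A.valuation ((g : F) : Qbar) := by
    intro x hxF hx
    obtain ⟨a, b, ha, -, hb1, hab⟩ :=
      exists_fraction hA hq F hxF ((A.valuation_le_one_iff _).mp hx.le)
    have hva : A.valuation x = A.valuation (a : Qbar) := by rw [← hab, map_mul, hb1, mul_one]
    rw [hva] at hx ⊢
    exact hbound ⟨a, ha⟩ hx
  refine ⟨((g : F) : Qbar), (g : F).2, ?_, hmemQ g hg, hall⟩
  intro h0
  have h := hall ((q : Qbar)) (natCast_mem F q) ((A.mem_nonunits_iff).mp hA)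
  rw [h0, map_zero, le_zero_iff, map_eq_zero] at h
  exact Nat.cast_ne_zero.mpr hq.ne_zero h

end Basic

/-- A finite normal level together with a chosen uniformizer at `A`. -/
structure TameLevel (A : ValuationSubring Qbar) where
  /-- the field -/
  F : IntermediateField ℚ Qbar
  finite : FiniteDimensional ℚ F
  normal : Normal ℚ F
  /-- the uniformizer -/
  π : Qbar
  mem : π ∈ F
  ne_zero : π ≠ 0
  lt_one : A.valuation π < 1
  le_of_lt_one : ∀ x ∈ F, A.valuation x < 1 → A.valuation x ≤ A.valuation π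

attribute [instance] TameLevel.finite TameLevel.normal

namespace TameLevel

variable {A : ValuationSubring Qbar} {q : ℕ} (L : TameLevel A) {σ τ φ : GalQ}

theorem apply_mem (σ : GalQ) {x : Qbar} (hx : x ∈ L.F) : σ x ∈ L.F := by
  have h := AlgEquiv.restrictNormal_commutes σ L.F ⟨x, hx⟩
  exact h ▸ (σ.restrictNormal L.F ⟨x, hx⟩).2

theorem valuation_apply (hσ : σ ∈ A.decompositionSubgroup ℚ) :
    A.valuation (σ L.π) = A.valuation L.π := by
  refine le_antisymm (L.le_of_lt_one _ (L.apply_mem σ L.mem)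
    (valuation_apply_lt_one hσ L.lt_one)) ?_
  have hinv := inv_mem hσ
  have h := L.le_of_lt_one _ (L.apply_mem σ⁻¹ L.mem) (valuation_apply_lt_one hinv L.lt_one)
  have h' := (valuation_apply_le_iff hσ (σ⁻¹ L.π) L.π).mpr h
  rwa [← AlgEquiv.mul_apply, mul_inv_cancel, AlgEquiv.one_apply] at h'

theorem valuation_div (hσ : σ ∈ A.decompositionSubgroup ℚ) :
    A.valuation (σ L.π / L.π) = 1 := by
  rw [map_div₀, L.valuation_apply hσ, div_self ((map_ne_zero _).mpr L.ne_zero)]

theorem div_mem (hσ : σ ∈ A.decompositionSubgroup ℚ) : σ L.π / L.π ∈ A :=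
  (A.valuation_le_one_iff _).mp (L.valuation_div hσ).le

/-- The residue of `σ π / π`. -/
def tameFun (σ : A.inertiaSubgroupIn ℚ) : ResidueField A :=
  residue A ⟨σ.1 L.π / L.π, L.div_mem (inertia_le_decomposition A σ.2)⟩

theorem tameFun_mul (σ τ : A.inertiaSubgroupIn ℚ) :
    L.tameFun (σ * τ) = L.tameFun σ * L.tameFun τ := by
  have hu := L.div_mem (inertia_le_decomposition A τ.2)
  have key : (⟨(σ * τ).1 L.π / L.π, L.div_mem (inertia_le_decomposition A (σ * τ).2)⟩ : A) =
      ⟨σ.1 L.π / L.π, L.div_mem (inertia_le_decomposition A σ.2)⟩ *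
        ⟨σ.1 (τ.1 L.π / L.π),
          decomposition_apply_mem (inertia_le_decomposition A σ.2) hu⟩ := by
    refine Subtype.ext ?_
    change σ.1 (τ.1 L.π) / L.π = σ.1 L.π / L.π * σ.1 (τ.1 L.π / L.π)
    have : σ.1 L.π ≠ 0 := (map_ne_zero σ.1).mpr L.ne_zero
    have hπ := L.ne_zero
    rw [map_div₀]
    field_simp
  rw [tameFun, key, map_mul]
  congr 1
  exact residue_eq_residue_iff.mpr (inertia_sub_mem_nonunits σ.2 hu)

theorem tameFun_ne_zero (σ : A.inertiaSubgroupIn ℚ) : L.tameFun σ ≠ 0 := by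
  intro h
  have h1 := (residue_eq_zero_iff _).mp h
  rw [← A.coe_mem_nonunits_iff, A.mem_nonunits_iff] at h1
  exact h1.ne (L.valuation_div (inertia_le_decomposition A σ.2))

/-- The tame character. -/
def tameHom : A.inertiaSubgroupIn ℚ →* (ResidueField A)ˣ :=
  MonoidHom.mk' (fun σ => Units.mk0 (L.tameFun σ) (L.tameFun_ne_zero σ))
    fun σ τ => Units.ext (L.tameFun_mul σ τ)

theorem tameHom_apply (σ : A.inertiaSubgroupIn ℚ) :
    ((L.tameHom σ : (ResidueField A)ˣ) : ResidueField A) = L.tameFun σ := rfl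

theorem tameHom_eq_one_iff (σ : A.inertiaSubgroupIn ℚ) :
    L.tameHom σ = 1 ↔ A.valuation (σ.1 L.π / L.π - 1) < 1 := by
  rw [← Units.val_eq_one, tameHom_apply, tameFun, ← map_one (residue A), residue_eq_residue_iff,
    A.mem_nonunits_iff]
  rfl

theorem valuation_smul_sub_lt (hA : A.LiesOverPrime q) (hq : q.Prime)
    (σ : A.inertiaSubgroupIn ℚ) (hσ : L.tameHom σ = 1) {y : Qbar} (hyF : y ∈ L.F) (hy : y ≠ 0)
    (hy1 : A.valuation y ≤ 1) : A.valuation (σ.1 y - y) < A.valuation y := by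
  have := isNoetherianRing_level L.F
  generalize hI : levelBallIdeal A L.F y = I
  induction I using IsNoetherian.induction generalizing y with
  | _ I ih =>
    rcases hy1.lt_or_eq with hlt | heq
    · have hle := L.le_of_lt_one y hyF hlt
      have hπ0 : (0 : A.ValueGroup) < A.valuation L.π := (A.valuation.pos_iff).mpr L.ne_zero
      have hy' : y / L.π ≠ 0 := div_ne_zero hy L.ne_zero
      have hy'F : y / L.π ∈ L.F := _root_.div_mem hyF L.mem
      have hy'1 : A.valuation (y / L.π) ≤ 1 := by rwa [map_div₀, div_le_one₀ hπ0]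
      have hlt' : A.valuation y < A.valuation (y / L.π) := by
        rw [map_div₀, lt_div_iff₀ hπ0]
        exact mul_lt_of_lt_one_right ((A.valuation.pos_iff).mpr hy) L.lt_one
      have hJ : I < levelBallIdeal A L.F (y / L.π) := by
        refine lt_of_le_of_ne (fun b hb => ?_) fun hcon => ?_
        · rw [← hI] at hb
          exact le_trans (show A.valuation ((b : L.F) : Qbar) ≤ A.valuation y from hb) hlt'.le
        · obtain ⟨a, b, ha, -, hb1, hab⟩ :=
            exists_fraction hA hq L.F hy'F ((A.valuation_le_one_iff _).mp hy'1)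
          have hva : A.valuation (a : Qbar) = A.valuation (y / L.π) := by
            rw [← hab, map_mul, hb1, mul_one]
          have hmem : (⟨a, ha⟩ : integralClosure ℤ L.F) ∈ levelBallIdeal A L.F (y / L.π) := hva.le
          rw [← hcon, ← hI] at hmem
          exact (not_le.mpr hlt') (hva ▸ (show A.valuation (a : Qbar) ≤ A.valuation y from hmem))
      have hIH := ih _ hJ hy'F hy' hy'1 rfl
      have h1 : A.valuation (σ.1 L.π - L.π) < A.valuation L.π := by
        have h2 := (L.tameHom_eq_one_iff σ).mp hσ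
        rw [div_sub_one L.ne_zero, map_div₀, div_lt_one₀ hπ0] at h2
        exact h2
      rw [show σ.1 y - y = (σ.1 L.π - L.π) * σ.1 (y / L.π) + L.π * (σ.1 (y / L.π) - y / L.π) by
        have : σ.1 y = σ.1 L.π * σ.1 (y / L.π) := by
          rw [← map_mul, mul_div_cancel₀ _ L.ne_zero]
        rw [this, sub_mul, mul_sub, mul_div_cancel₀ _ L.ne_zero]
        ring]
      have hσv : A.valuation (σ.1 (y / L.π)) = A.valuation (y / L.π) := by
        have h3 := Valuation.map_eq_of_sub_lt _ hIH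
        exact h3
      have hvy : A.valuation y = A.valuation L.π * A.valuation (y / L.π) := by
        rw [← map_mul, mul_div_cancel₀ _ L.ne_zero]
      refine Valuation.map_add_lt _ ?_ ?_
      · rw [map_mul, hσv, hvy]
        exact mul_lt_mul_of_pos_right h1 ((A.valuation.pos_iff).mpr hy')
      · rw [map_mul, hvy]
        exact mul_lt_mul_of_pos_left hIH hπ0
    · rw [heq, ← A.mem_nonunits_iff]
      exact inertia_sub_mem_nonunits σ.2 ((A.valuation_le_one_iff _).mp hy1)

/-- An element of order prime to `q` in the kernel of the tame character is trivial. -/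
theorem apply_eq_self_of_tameHom (hA : A.LiesOverPrime q) (hq : q.Prime)
    (σ : A.inertiaSubgroupIn ℚ) (hσ : L.tameHom σ = 1) {m : ℕ} (hm : ¬ q ∣ m)
    (hpow : ∀ x ∈ L.F, (σ.1 ^ m) x = x) {x : Qbar} (hxF : x ∈ L.F) : σ.1 x = x := by
  have key : ∀ z ∈ L.F, z ∈ A → σ.1 z = z := by
    intro z hzF hz
    by_contra hne
    set d := σ.1 z - z with hd
    have hd0 : d ≠ 0 := sub_ne_zero.mpr hne
    have hdF : d ∈ L.F := sub_mem (L.apply_mem _ hzF) hzF
    have hd1 : A.valuation d ≤ 1 :=
      ((A.mem_nonunits_iff).mp (inertia_sub_mem_nonunits σ.2 hz)).le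
    have hpw : ∀ i : ℕ, A.valuation ((σ.1 ^ i) d - d) < A.valuation d := by
      intro i
      induction i with
      | zero => simpa using (A.valuation.pos_iff).mpr hd0
      | succ i ih =>
        have hiF : (σ.1 ^ i) d ∈ L.F := L.apply_mem _ hdF
        have hv := Valuation.map_eq_of_sub_lt _ ih
        have hi0 : (σ.1 ^ i) d ≠ 0 := (map_ne_zero _).mpr hd0
        have hstep := L.valuation_smul_sub_lt hA hq σ hσ hiF hi0 (hv.le.trans hd1)
        rw [hv] at hstep
        rw [pow_succ', AlgEquiv.mul_apply, ← sub_add_sub_cancel _ ((σ.1 ^ i) d) d]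
        exact Valuation.map_add_lt _ hstep ih
    have htel : ∑ i ∈ Finset.range m, (σ.1 ^ i) d = 0 := by
      have h := Finset.sum_range_sub (fun i => (σ.1 ^ i) z) m
      rw [hpow z hzF, pow_zero, AlgEquiv.one_apply, sub_self] at h
      refine Eq.trans (Finset.sum_congr rfl fun i _ => ?_) h
      rw [hd, map_sub, pow_succ, AlgEquiv.mul_apply]
    have hlt : A.valuation ((m : Qbar) * d) < A.valuation d := by
      have hsum : (m : Qbar) * d = -∑ i ∈ Finset.range m, ((σ.1 ^ i) d - d) := by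
        rw [Finset.sum_sub_distrib, htel, Finset.sum_const, Finset.card_range, zero_sub, neg_neg,
          nsmul_eq_mul]
      rw [hsum, Valuation.map_neg]
      exact Valuation.map_sum_lt _ ((map_ne_zero _).mpr hd0) fun i _ => hpw i
    have hm1 : A.valuation (m : Qbar) = 1 :=
      ((A.valuation_le_one_iff _).mpr (natCast_mem A m)).antisymm
        (not_lt.mp fun h => hm ((place_natCast_mem_nonunits_iff hA hq m).mp h))
    rw [map_mul, hm1, one_mul] at hlt
    exact lt_irrefl _ hlt
  rcases A.mem_or_inv_mem x with h | h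
  · exact key x hxF h
  · have := key x⁻¹ (inv_mem hxF) h
    rwa [map_inv₀, inv_inj] at this

/-- The kernel of the tame character has `q`-power exponent on the level. -/
theorem exists_pow_fix_of_tameHom (hA : A.LiesOverPrime q) (hq : q.Prime)
    (σ : A.inertiaSubgroupIn ℚ) (hσ : L.tameHom σ = 1) :
    ∃ k : ℕ, ∀ x ∈ L.F, (σ.1 ^ q ^ k) x = x := by
  have hord : 0 < orderOf (σ.1.restrictNormal L.F) := orderOf_pos _
  obtain ⟨k, m, hm, hkm⟩ := Nat.exists_eq_pow_mul_and_not_dvd hord.ne' q hq.ne_one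
  refine ⟨k, fun x hx => ?_⟩
  refine L.apply_eq_self_of_tameHom hA hq (σ ^ q ^ k) (by rw [map_pow, hσ, one_pow]) hm ?_ hx
  intro y hy
  change ((σ.1 ^ q ^ k) ^ m) y = y
  have h1 : (σ.1 ^ (q ^ k * m)).restrictNormal L.F = 1 := by
    change AlgEquiv.restrictNormalHom L.F (σ.1 ^ (q ^ k * m)) = 1
    rw [map_pow, ← hkm]
    exact pow_orderOf_eq_one _
  have h2 := AlgEquiv.restrictNormal_commutes (σ.1 ^ (q ^ k * m)) L.F ⟨y, hy⟩
  rw [h1] at h2
  rw [← pow_mul]
  exact h2.symm

theorem tameHom_eq_of_forall_eq (σ τ : A.inertiaSubgroupIn ℚ) (h : ∀ x ∈ L.F, σ.1 x = τ.1 x) :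
    L.tameHom σ = L.tameHom τ := by
  refine Units.ext ?_
  simp only [tameHom_apply, tameFun, h _ L.mem]

/-- The image of the tame character is cyclic. -/
theorem exists_generator : ∃ τ₀ : A.inertiaSubgroupIn ℚ,
    ∀ σ : A.inertiaSubgroupIn ℚ, L.tameHom σ ∈ Subgroup.zpowers (L.tameHom τ₀) := by
  classical
  have hsub : Set.range L.tameHom ⊆ Set.range fun e : {e : L.F ≃ₐ[ℚ] L.F //
      ∃ σ : A.inertiaSubgroupIn ℚ, σ.1.restrictNormal L.F = e} => L.tameHom e.2.choose := by
    rintro _ ⟨σ, rfl⟩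
    refine ⟨⟨_, σ, rfl⟩, L.tameHom_eq_of_forall_eq _ _ fun x hx => ?_⟩
    set e : {e : L.F ≃ₐ[ℚ] L.F //
      ∃ σ : A.inertiaSubgroupIn ℚ, σ.1.restrictNormal L.F = e} := ⟨_, σ, rfl⟩
    have h1 := AlgEquiv.restrictNormal_commutes e.2.choose.1 L.F ⟨x, hx⟩
    have h2 := AlgEquiv.restrictNormal_commutes σ.1 L.F ⟨x, hx⟩
    rw [e.2.choose_spec] at h1
    exact h1.symm.trans h2
  have : Finite L.tameHom.range := ((Set.finite_range _).subset hsub).to_subtype
  obtain ⟨⟨g, τ₀, rfl⟩, hg⟩ := IsCyclic.exists_generator (α := L.tameHom.range)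
  refine ⟨τ₀, fun σ => ?_⟩
  obtain ⟨n, hn⟩ := Subgroup.mem_zpowers_iff.mp (hg ⟨_, σ, rfl⟩)
  exact Subgroup.mem_zpowers_iff.mpr ⟨n, congrArg Subtype.val hn⟩

/-- Frobenius conjugation is the `q`-th power on the tame character. -/
theorem tameHom_conj (hA : A.LiesOverPrime q) (hq : q.Prime) (hφ : A.IsFrobeniusAt φ q)
    (σ : A.inertiaSubgroupIn ℚ) (hmem : φ * σ.1 * φ⁻¹ ∈ A.inertiaSubgroupIn ℚ) :
    L.tameHom ⟨φ * σ.1 * φ⁻¹, hmem⟩ = L.tameHom σ ^ q := by
  have hD := hφ.mem_decompositionSubgroup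
  have hDi := inv_mem hD
  set w := φ⁻¹ L.π / L.π with hw
  have hwA : w ∈ A := L.div_mem hDi
  have hw0 : w ≠ 0 := div_ne_zero ((map_ne_zero _).mpr L.ne_zero) L.ne_zero
  have hwv : A.valuation w = 1 := L.valuation_div hDi
  set u := σ.1 L.π / L.π with hu
  have huA : u ∈ A := L.div_mem (inertia_le_decomposition A σ.2)
  set u' := σ.1 (φ⁻¹ L.π) / φ⁻¹ L.π with hu'
  have hu'eq : u' = u * (σ.1 w / w) := by
    rw [hu', hu, hw, map_div₀]
    have h1 : σ.1 L.π ≠ 0 := (map_ne_zero _).mpr L.ne_zero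
    have h2 : φ⁻¹ L.π ≠ 0 := (map_ne_zero _).mpr L.ne_zero
    have h3 := L.ne_zero
    field_simp
  have hσw : A.valuation (σ.1 w / w - 1) < 1 := by
    rw [div_sub_one hw0, map_div₀, hwv, div_one]
    exact inertia_sub_mem_nonunits σ.2 hwA
  have hu'A : u' ∈ A := by
    rw [hu'eq]
    exact mul_mem huA ((A.valuation_le_one_iff _).mp
      (Valuation.map_one_add_of_lt _ hσw ▸ by rw [add_sub_cancel]))
  refine Units.ext ?_
  rw [Units.val_pow_eq_pow_val, tameHom_apply, tameHom_apply, tameFun, tameFun]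
  have hval : (φ * σ.1 * φ⁻¹) L.π / L.π = φ u' := by
    rw [hu', map_div₀, AlgEquiv.mul_apply, AlgEquiv.mul_apply]
    congr 1
    rw [← AlgEquiv.mul_apply, mul_inv_cancel, AlgEquiv.one_apply]
  calc residue A ⟨(φ * σ.1 * φ⁻¹) L.π / L.π, _⟩
      = residue A ((⟨u', hu'A⟩ : A) ^ q) := by
        refine residue_eq_residue_iff.mpr ?_
        change (φ * σ.1 * φ⁻¹) L.π / L.π - u' ^ q ∈ A.nonunits
        rw [hval]
        exact isFrobeniusAt_sub_mem_nonunits hφ hu'A
    _ = residue A ⟨u, huA⟩ ^ q := by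
        rw [map_pow]
        congr 1
        refine residue_eq_residue_iff.mpr ?_
        change u' - u ∈ A.nonunits
        rw [hu'eq, A.mem_nonunits_iff, ← mul_sub_one, map_mul]
        exact (mul_le_of_le_one_left' ((A.valuation_le_one_iff _).mpr huA)).trans_lt hσw

end TameLevel

/-- A normal level containing a given one, with a uniformizer. -/
theorem exists_tameLevel {A : ValuationSubring Qbar} {q : ℕ} (hA : A.LiesOverPrime q)
    (hq : q.Prime) (F : IntermediateField ℚ Qbar) [FiniteDimensional ℚ F] :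
    ∃ L : TameLevel A, F ≤ L.F := by
  have : Algebra.IsAlgebraic ℚ Qbar := AlgebraicClosure.isAlgebraic ℚ
  have : IsAlgClosure ℚ Qbar := ⟨inferInstance, inferInstance⟩
  have : Normal ℚ Qbar := IsAlgClosure.normal ℚ _
  let N := IntermediateField.normalClosure ℚ F Qbar
  have : Normal ℚ N := normalClosure.normal ℚ _ _
  obtain ⟨π, h1, h2, h3, h4⟩ := exists_uniformizer hA hq N
  exact ⟨⟨N, inferInstance, inferInstance, π, h1, h2, h3, h4⟩, IntermediateField.le_normalClosure F⟩

variable {A : ValuationSubring Qbar} {q : ℕ} {G : Type*} [Group G]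

/-- If inertia has image without `q`-torsion in a group of finite level, that image is generated
by one element, on which Frobenius acts by the `q`-th power. -/
theorem exists_tame_generator (hA : A.LiesOverPrime q) (hq : q.Prime)
    (r : A.decompositionSubgroup ℚ →* G)
    (F : IntermediateField ℚ Qbar) [FiniteDimensional ℚ F]
    (hr : ∀ σ : A.decompositionSubgroup ℚ, (∀ x ∈ F, σ.1 x = x) → r σ = 1)
    (htors : ∀ σ : A.decompositionSubgroup ℚ, σ.1 ∈ A.inertiaSubgroupIn ℚ →
      ∀ k : ℕ, r σ ^ q ^ k = 1 → r σ = 1) :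
    ∃ τ₀ : A.decompositionSubgroup ℚ, τ₀.1 ∈ A.inertiaSubgroupIn ℚ ∧
      (∀ σ : A.decompositionSubgroup ℚ, σ.1 ∈ A.inertiaSubgroupIn ℚ →
        r σ ∈ Subgroup.zpowers (r τ₀)) ∧
      ∀ φ : A.decompositionSubgroup ℚ, A.IsFrobeniusAt φ.1 q →
        r φ * r τ₀ * (r φ)⁻¹ = r τ₀ ^ q ∧
        (r φ * r τ₀ = r τ₀ * r φ →
          r τ₀ ^ (q - 1) = 1 ∧
          ∀ σ : A.decompositionSubgroup ℚ, σ.1 ∈ A.inertiaSubgroupIn ℚ →
            (∀ ζ : Qbar, ζ ^ q = 1 → σ.1 ζ = ζ) → r σ = 1) := by
  have := Fact.mk hq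
  have : NeZero (q ^ 1) := ⟨by simpa using hq.ne_zero⟩
  obtain ⟨ζ, hζ⟩ := HasEnoughRootsOfUnity.exists_primitiveRoot Qbar q
  have : FiniteDimensional ℚ (IntermediateField.adjoin ℚ ({ζ} : Set Qbar)) :=
    IntermediateField.adjoin.finiteDimensional
      (IsIntegral.of_pow hq.pos (by rw [hζ.pow_eq_one]; exact isIntegral_one))
  obtain ⟨L, hL⟩ := exists_tameLevel hA hq (F ⊔ IntermediateField.adjoin ℚ ({ζ} : Set Qbar))
  have hζF : ζ ∈ L.F := hL (le_sup_right (a := F) (IntermediateField.mem_adjoin_simple_self ℚ ζ))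
  obtain ⟨τ₀, hτ₀⟩ := L.exists_generator
  let ι : A.inertiaSubgroupIn ℚ →* A.decompositionSubgroup ℚ :=
    Subgroup.inclusion (inertia_le_decomposition A)
  have hker : ∀ σ : A.inertiaSubgroupIn ℚ, L.tameHom σ = 1 → r (ι σ) = 1 := by
    intro σ hσ
    obtain ⟨k, hk⟩ := L.exists_pow_fix_of_tameHom hA hq σ hσ
    refine htors (ι σ) σ.2 k ?_
    rw [← map_pow]
    exact hr _ fun x hx => hk x (hL (le_sup_left (b := IntermediateField.adjoin ℚ
      ({ζ} : Set Qbar)) hx))
  have hker2 : ∀ σ τ : A.inertiaSubgroupIn ℚ, L.tameHom σ = L.tameHom τ → r (ι σ) = r (ι τ) := by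
    intro σ τ h
    refine (eq_of_inv_mul_eq_one ?_).symm
    rw [← map_inv, ← map_mul, ← map_inv, ← map_mul]
    exact hker _ (by rw [map_mul, map_inv, h, inv_mul_cancel])
  refine ⟨ι τ₀, τ₀.2, fun σ hσ => ?_, fun φ hφ => ?_⟩
  · obtain ⟨n, hn⟩ := Subgroup.mem_zpowers_iff.mp (hτ₀ ⟨σ.1, hσ⟩)
    refine Subgroup.mem_zpowers_iff.mpr ⟨n, ?_⟩
    rw [← map_zpow, ← map_zpow, hker2 (τ₀ ^ n) ⟨σ.1, hσ⟩ (by rw [map_zpow, hn])]
    rfl
  · have hmem : φ.1 * τ₀.1 * φ.1⁻¹ ∈ A.inertiaSubgroupIn ℚ :=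
      inertia_normal_in_decomposition τ₀.2 φ.2
    have hrel : r φ * r (ι τ₀) * (r φ)⁻¹ = r (ι τ₀) ^ q := by
      rw [← map_inv, ← map_mul, ← map_mul, ← map_pow, ← map_pow,
        ← hker2 ⟨_, hmem⟩ (τ₀ ^ q) (by rw [map_pow]; exact L.tameHom_conj hA hq hφ τ₀ hmem)]
      rfl
    refine ⟨hrel, fun hcomm => ?_⟩
    have hq1 : r (ι τ₀) ^ (q - 1) = 1 := by
      rw [hcomm, mul_inv_cancel_right] at hrel
      have : r (ι τ₀) ^ (q - 1) * r (ι τ₀) = 1 * r (ι τ₀) := by
        rw [← pow_succ, Nat.sub_add_cancel hq.one_le, ← hrel, one_mul]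
      exact mul_right_cancel this
    refine ⟨hq1, fun σ hσ hfix => ?_⟩
    -- the action on `q`-th roots of unity factors through the tame character
    have hcard : Nat.card (rootsOfUnity (q ^ 1) Qbar) = q ^ 1 :=
      HasEnoughRootsOfUnity.natCard_rootsOfUnity Qbar (q ^ 1)
    let η : A.inertiaSubgroupIn ℚ →* (ZMod (q ^ 1))ˣ :=
      MonoidHom.mk' (fun σ => modularCyclotomicCharacter Qbar hcard (σ.1 : Qbar ≃+* Qbar))
        fun a b => by
          rw [← map_mul]
          rfl
    have hζ1 : IsPrimitiveRoot ζ (q ^ 1) := by rwa [pow_one]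
    have hηone : ∀ a : A.inertiaSubgroupIn ℚ, (∀ ζ' : Qbar, ζ' ^ q = 1 → a.1 ζ' = ζ') → η a = 1 := by
      intro a ha
      refine (Units.ext (modularCyclotomicCharacter.unique Qbar hcard (a.1 : Qbar ≃+* Qbar)
        (c := 1) fun t ht => ?_).symm)
      have ht1 := (mem_rootsOfUnity' (q ^ 1) t).mp ht
      rw [AlgEquiv.coe_ringEquiv, ha _ (by simpa using ht1), ZMod.val_one_eq_one_mod]
      exact (pow_one _).symm.trans (pow_eq_pow_mod 1 ht1)
    have hcardU : Fintype.card (ZMod (q ^ 1))ˣ = q - 1 := by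
      rw [ZMod.card_units_eq_totient, pow_one, Nat.totient_prime hq]
    have hηker : ∀ a : A.inertiaSubgroupIn ℚ, L.tameHom a = 1 → η a = 1 := by
      intro a ha
      obtain ⟨k, hk⟩ := L.exists_pow_fix_of_tameHom hA hq a ha
      have h1 : η a ^ q ^ k = 1 := by
        rw [← map_pow]
        refine hηone _ fun ζ' hζ' => ?_
        obtain ⟨i, -, rfl⟩ := hζ.eq_pow_of_pow_eq_one hζ'
        exact hk _ (pow_mem hζF i)
      have h2 : orderOf (η a) ∣ q - 1 := orderOf_dvd_card.trans (dvd_of_eq hcardU)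
      rw [← orderOf_eq_one_iff]
      have h3 : Nat.Coprime (q ^ k) (q - 1) :=
        Nat.Coprime.pow_left k ((Nat.Prime.coprime_iff_not_dvd hq).mpr fun h =>
          absurd (Nat.le_of_dvd (by have := hq.two_le; omega) h) (by have := hq.two_le; omega))
      exact Nat.eq_one_of_dvd_one ((Nat.dvd_gcd (orderOf_dvd_of_pow_eq_one h1) h2).trans (dvd_of_eq h3))
    have hgen : ∀ a : A.inertiaSubgroupIn ℚ, η a ∈ Subgroup.zpowers (η τ₀) := by
      intro a
      obtain ⟨n, hn⟩ := Subgroup.mem_zpowers_iff.mp (hτ₀ a)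
      refine Subgroup.mem_zpowers_iff.mpr ⟨n, ?_⟩
      rw [← map_zpow]
      refine (eq_of_inv_mul_eq_one ?_)
      rw [← map_inv, ← map_mul]
      exact hηker _ (by rw [map_mul, map_inv, map_zpow, hn, inv_mul_cancel])
    have hord : orderOf (η τ₀) = q - 1 := by
      rw [orderOf_eq_card_of_forall_mem_zpowers, Nat.card_eq_fintype_card, hcardU]
      intro u
      obtain ⟨a, ha, rfl⟩ := exists_inertia_modularCyclotomicCharacter_eq hA hq 1 hcard u
      exact hgen ⟨a, ha⟩
    obtain ⟨n, hn⟩ := Subgroup.mem_zpowers_iff.mp (hτ₀ ⟨σ.1, hσ⟩)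
    have hηn : η τ₀ ^ n = 1 := by
      rw [← hηone ⟨σ.1, hσ⟩ hfix, ← map_zpow]
      refine (eq_of_inv_mul_eq_one ?_)
      rw [← map_inv, ← map_mul]
      exact hηker _ (by rw [map_mul, map_inv, map_zpow, hn, inv_mul_cancel])
    have hdvd : ((q - 1 : ℕ) : ℤ) ∣ n := by
      rw [← hord]
      exact orderOf_dvd_iff_zpow_eq_one.mpr hηn
    have hσι : r σ = r (ι τ₀) ^ n := by
      rw [← map_zpow, ← map_zpow, ← hker2 ⟨σ.1, hσ⟩ (τ₀ ^ n) (by rw [map_zpow, hn])]
      rfl
    obtain ⟨d, rfl⟩ := hdvd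
    rw [hσι, zpow_mul, zpow_natCast, hq1, one_zpow]

end Fermat.Agent.TWGal
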