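import Mathlib.RingTheory.AdicCompletion.Basic
import Mathlib.RingTheory.LocalRing.ResidueField.Basic
import Mathlib.RingTheory.Henselian
import Mathlib.LinearAlgebra.Matrix.Charpoly.Coeff
import Mathlib.LinearAlgebra.Matrix.NonsingularInverse

/-!
# Elementary algebra for two dimensional representations at Taylor–Wiles primes
-/

set_option autoImplicit false

noncomputable section

namespace Fermat.Agent.TWGal

open IsLocalRing Polynomial

variable {A : Type*} [CommRing A] [IsLocalRing A]

theorem natCast_not_mem_of_pred_dvd {p q : ℕ} (hp : (p : A) ∈ maximalIdeal A) (hq : q ≠ 0)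
    (hdvd : p ∣ q - 1) : (q : A) ∉ maximalIdeal A := by
  obtain ⟨c, hc⟩ := hdvd
  intro h
  have h1 : ((q - 1 : ℕ) : A) ∈ maximalIdeal A := by
    rw [hc, Nat.cast_mul]; exact Ideal.mul_mem_right _ _ hp
  have h2 := sub_mem h h1
  rw [Nat.cast_sub (Nat.one_le_iff_ne_zero.mpr hq), Nat.cast_one, sub_sub_cancel] at h2
  exact (maximalIdeal.isMaximal A).ne_top ((Ideal.eq_top_iff_one _).mpr h2)

theorem residue_natCast_of_pred_dvd {p q : ℕ} (hp : (p : A) ∈ maximalIdeal A) (hq : q ≠ 0)
    (hdvd : p ∣ q - 1) : residue A (q : A) = 1 := by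
  obtain ⟨c, hc⟩ := hdvd
  rw [show q = p * c + 1 by omega, Nat.cast_add, Nat.cast_mul, Nat.cast_one, map_add, map_mul,
    (residue_eq_zero_iff _).mpr hp, zero_mul, zero_add, map_one]

theorem isUnit_of_residue_ne_zero {a : A} (h : residue A a ≠ 0) : IsUnit a :=
  (residue_ne_zero_iff_isUnit a).mp h

/-- A matrix congruent to `1` modulo the maximal ideal, with a power equal to `1` modulo `I` of
exponent prime to the residue characteristic, is `1` modulo `I`. -/
theorem map_mk_eq_one_of_pow {I : Ideal A} {n : Type*} [Fintype n] [DecidableEq n]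
    {M : Matrix n n A} (h1 : M.map (residue A) = 1) {m : ℕ} (hm : (m : A) ∉ maximalIdeal A)
    (hpow : (M.map (Ideal.Quotient.mk I)) ^ m = 1) : M.map (Ideal.Quotient.mk I) = 1 := by
  set S := ∑ i ∈ Finset.range m, M ^ i with hS
  have hSres : S.map (residue A) = (m : ResidueField A) • (1 : Matrix n n (ResidueField A)) := by
    rw [hS, ← RingHom.mapMatrix_apply, map_sum]
    simp only [map_pow, RingHom.mapMatrix_apply, h1, one_pow, Finset.sum_const, Finset.card_range,
      Nat.cast_smul_eq_nsmul]
  have hu : IsUnit S.det := by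
    refine isUnit_of_residue_ne_zero ?_
    rw [RingHom.map_det, RingHom.mapMatrix_apply, hSres, Matrix.det_smul, Matrix.det_one, mul_one]
    refine pow_ne_zero _ ?_
    rw [← map_natCast (residue A), Ne, residue_eq_zero_iff]
    exact hm
  have hunit : IsUnit ((Ideal.Quotient.mk I).mapMatrix S) :=
    ((Matrix.isUnit_iff_isUnit_det S).mpr hu).map _
  have hg : (Ideal.Quotient.mk I).mapMatrix S * (M.map (Ideal.Quotient.mk I) - 1) = 0 := by
    rw [hS, map_sum]
    simp only [map_pow, RingHom.mapMatrix_apply]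
    rw [geom_sum_mul, hpow, sub_self]
  exact sub_eq_zero.mp (hunit.mul_right_eq_zero.mp hg)

/-- Scalar version of `map_mk_eq_one_of_pow`. -/
theorem sub_one_mem_of_pow {I : Ideal A} {x : A} (h1 : residue A x = 1) {m : ℕ}
    (hm : (m : A) ∉ maximalIdeal A) (hpow : x ^ m - 1 ∈ I) : x - 1 ∈ I := by
  have hu : IsUnit (∑ i ∈ Finset.range m, x ^ i) := by
    refine isUnit_of_residue_ne_zero ?_
    rw [map_sum]
    simp only [map_pow, h1, one_pow, Finset.sum_const, Finset.card_range, nsmul_eq_mul, mul_one]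
    rw [← map_natCast (residue A), Ne, residue_eq_zero_iff]
    exact hm
  rw [← geom_sum_mul] at hpow
  exact (Ideal.unit_mul_mem_iff_mem I hu).mp hpow

theorem mem_iInf_pow [IsHausdorff (maximalIdeal A) A] {a : A}
    (h : ∀ n : ℕ, a ∈ maximalIdeal A ^ n) : a = 0 :=
  IsHausdorff.haus' (I := maximalIdeal A) a fun n => by
    rw [SModEq.zero, smul_eq_mul, Ideal.mul_top]
    exact h n

/-- Eigenvalues of a matrix lifting distinct residual eigenvalues. -/
theorem exists_eigenvalues [IsAdicComplete (maximalIdeal A) A] (M : Matrix (Fin 2) (Fin 2) A)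
    {α β : ResidueField A} (hαβ : α ≠ β)
    (h : M.charpoly.map (residue A) = (X - C α) * (X - C β)) :
    ∃ x₀ x₁ : A, residue A x₀ = α ∧ residue A x₁ = β ∧ x₀ + x₁ = M.trace ∧ x₀ * x₁ = M.det ∧
      IsUnit (x₀ - x₁) := by
  have hch := Matrix.charpoly_fin_two M
  obtain ⟨a, ha⟩ := residue_surjective α
  have htr : residue A M.trace = α + β := by
    have h1 := congrArg (fun f : (ResidueField A)[X] => f.coeff 1) h
    simp [hch, coeff_X_pow, mul_sub, sub_mul, coeff_C] at h1
    linear_combination -h1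
  have hder : IsUnit (Ideal.Quotient.mk (maximalIdeal A) (M.charpoly.derivative.eval a)) := by
    refine (isUnit_of_residue_ne_zero ?_).map _
    rw [← eval_map_apply, ← derivative_map, h, ha]
    simp [sub_ne_zero.mpr hαβ]
  obtain ⟨x₀, hx₀, hx₀a⟩ := HenselianRing.is_henselian (I := maximalIdeal A) M.charpoly
    M.charpoly_monic a (by
      rw [← residue_eq_zero_iff, ← eval_map_apply, h, ha]
      simp) hder
  have hres : residue A x₀ = α := by
    rw [← ha]
    exact Ideal.Quotient.eq.mpr hx₀a
  refine ⟨x₀, M.trace - x₀, hres, by rw [map_sub, htr, hres]; ring, by ring, ?_, ?_⟩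
  · rw [IsRoot, hch] at hx₀
    simp only [eval_add, eval_sub, eval_pow, eval_X, eval_mul, eval_C] at hx₀
    linear_combination -hx₀
  · refine isUnit_of_residue_ne_zero ?_
    rw [map_sub, map_sub, htr, hres]
    intro h0
    exact hαβ (by linear_combination h0)

/-- Diagonalisation by residually distinct eigenvalues. -/
theorem exists_conj_diag (M : Matrix (Fin 2) (Fin 2) A) {x₀ x₁ : A}
    (ht : x₀ + x₁ = M.trace) (hd : x₀ * x₁ = M.det) (hu : IsUnit (x₀ - x₁)) :
    ∃ P : Matrix (Fin 2) (Fin 2) A, IsUnit P.det ∧ M * P = P * Matrix.diagonal ![x₀, x₁] := by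
  rw [Matrix.trace_fin_two] at ht
  rw [Matrix.det_fin_two] at hd
  have hor : IsUnit (x₀ - M 0 0) ∨ IsUnit (x₀ - M 1 1) := by
    refine IsLocalRing.isUnit_or_isUnit_of_isUnit_add ?_
    rwa [show x₀ - M 0 0 + (x₀ - M 1 1) = x₀ - x₁ by linear_combination ht]
  rcases hor with h | h
  · refine ⟨!![M 0 1, x₁ - M 1 1; x₀ - M 0 0, M 1 0], ?_, ?_⟩
    · rw [Matrix.det_fin_two_of,
        show M 0 1 * M 1 0 - (x₁ - M 1 1) * (x₀ - M 0 0) = (x₀ - M 0 0) * (x₀ - x₁) by
          linear_combination hd - x₀ * ht]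
      exact h.mul hu
    · ext i j
      fin_cases i <;> fin_cases j <;>
        simp [Matrix.mul_apply, Fin.sum_univ_two] <;>
        (first | ring1 | linear_combination hd - x₀ * ht | linear_combination hd - x₁ * ht)
  · refine ⟨!![x₀ - M 1 1, M 0 1; M 1 0, x₁ - M 0 0], ?_, ?_⟩
    · rw [Matrix.det_fin_two_of,
        show (x₀ - M 1 1) * (x₁ - M 0 0) - M 0 1 * M 1 0 = -((x₀ - M 1 1) * (x₀ - x₁)) by
          linear_combination -hd + x₀ * ht]
      exact (h.mul hu).neg
    · ext i j
      fin_cases i <;> fin_cases j <;>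
        simp [Matrix.mul_apply, Fin.sum_univ_two] <;>
        (first | ring1 | linear_combination hd - x₀ * ht | linear_combination hd - x₁ * ht)

/-- Off-diagonal entries of powers of a matrix congruent to `1`. -/
theorem exists_pow_apply_offdiag {M : Matrix (Fin 2) (Fin 2) A} (h1 : M.map (residue A) = 1)
    {i j : Fin 2} (hij : i ≠ j) (k : ℕ) :
    ∃ c : A, residue A c = k ∧ (M ^ k) i j = c * M i j := by
  induction k with
  | zero => exact ⟨0, by simp, by simp [Matrix.one_apply_ne hij]⟩
  | succ k ih =>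
    obtain ⟨c, hc, he⟩ := ih
    refine ⟨(M ^ k) i i + c * M j j, ?_, ?_⟩
    · have h2 : (M ^ k).map (residue A) = 1 := by
        rw [← RingHom.mapMatrix_apply, map_pow, RingHom.mapMatrix_apply, h1, one_pow]
      have e1 := congrFun (congrFun h2 i) i
      have e2 := congrFun (congrFun h1 j) j
      simp only [Matrix.map_apply, Matrix.one_apply_eq] at e1 e2
      rw [map_add, map_mul, e1, e2, hc]
      push_cast
      ring
    · rw [pow_succ, Matrix.mul_apply, Fin.sum_univ_two]
      fin_cases i <;> fin_cases j <;> simp_all <;> ring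

/-- A tame relation with a residually regular diagonal element kills off-diagonal entries. -/
theorem offdiag_mem_of_relation {I : Ideal A} {M : Matrix (Fin 2) (Fin 2) A} {x : Fin 2 → A}
    (h1 : M.map (residue A) = 1) {q : ℕ} (hq1 : residue A (q : A) = 1)
    (hx : residue A (x 0) ≠ residue A (x 1))
    (hrel : (Matrix.diagonal x * M).map (Ideal.Quotient.mk I) =
      (M ^ q * Matrix.diagonal x).map (Ideal.Quotient.mk I))
    {i j : Fin 2} (hij : i ≠ j) : M i j ∈ I := by
  obtain ⟨c, hc, he⟩ := exists_pow_apply_offdiag h1 hij q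
  have h2 := congrFun (congrFun hrel i) j
  simp only [Matrix.map_apply, Matrix.diagonal_mul, Matrix.mul_diagonal, he, Ideal.Quotient.eq]
    at h2
  rw [show x i * M i j - c * M i j * x j = (x i - c * x j) * M i j by ring] at h2
  refine (Ideal.unit_mul_mem_iff_mem I (isUnit_of_residue_ne_zero ?_)).mp h2
  rw [map_sub, map_mul, hc, ← map_natCast (residue A), hq1, one_mul, sub_ne_zero]
  fin_cases i <;> fin_cases j <;> first | exact absurd rfl hij | exact hx | exact hx.symm

end Fermat.Agent.TWGal
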