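import Fermat.Agent.TWGal.Tame
import Fermat.Agent.TWGal.Elementary
import Fermat.Agent.Density.Rep
import Fermat.Prelude.Def_GaloisRep_LocalConditions

/-!
# Deformations at a Taylor–Wiles prime

For `q ≡ 1 (mod p)` where the residual representation is unramified with distinct Frobenius
eigenvalues, a deformation restricted to the decomposition group is a sum of two characters,
whose restrictions to inertia factor through `(ℤ/q)ˣ` and take values killed by the `p`-part of
`q - 1`.
-/

set_option autoImplicit false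
set_option linter.style.haveILetI false

noncomputable section

namespace Fermat.Agent.TWGal

open IsLocalRing Polynomial
open Fermat.Agent.Galois

variable {A : Type} [CommRing A] [IsLocalRing A]

theorem natCard_rootsOfUnity_qbar (m : ℕ) [NeZero m] : Nat.card (rootsOfUnity m Qbar) = m :=
  HasEnoughRootsOfUnity.natCard_rootsOfUnity Qbar m

/-- The action on `q`-th roots of unity. -/
def cycMod (q : ℕ) [NeZero q] : GalQ →* (ZMod q)ˣ :=
  MonoidHom.mk' (fun σ => modularCyclotomicCharacter Qbar (natCard_rootsOfUnity_qbar q)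
    (σ : Qbar ≃+* Qbar)) fun a b => by
      rw [← map_mul]
      rfl

theorem cycMod_surjOn_inertia {P : ValuationSubring Qbar} {q : ℕ} [NeZero q]
    (hP : P.LiesOverPrime q) (hq : q.Prime) (u : (ZMod q)ˣ) :
    ∃ σ ∈ P.inertiaSubgroupIn ℚ, cycMod q σ = u := by
  have key : ∀ (m : ℕ) [NeZero m] (hn : Nat.card (rootsOfUnity m Qbar) = m) (u : (ZMod m)ˣ),
      m = q ^ 1 → ∃ σ ∈ P.inertiaSubgroupIn ℚ,
        modularCyclotomicCharacter Qbar hn (σ : Qbar ≃+* Qbar) = u := by
    intro m _ hn u hm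
    subst hm
    exact exists_inertia_modularCyclotomicCharacter_eq hP hq 1 hn u
  exact key q _ u (pow_one q).symm

theorem apply_eq_self_of_cycMod {q : ℕ} [NeZero q] {σ : GalQ} (h : cycMod q σ = 1) {ζ : Qbar}
    (hζ : ζ ^ q = 1) : σ ζ = ζ := by
  obtain ⟨ζ₀, hζ₀⟩ := HasEnoughRootsOfUnity.exists_primitiveRoot Qbar q
  obtain ⟨i, -, rfl⟩ := hζ₀.eq_pow_of_pow_eq_one hζ
  have hu : ((hζ₀.isUnit (NeZero.ne q)).unit) ∈ rootsOfUnity q Qbar := by
    rw [mem_rootsOfUnity']
    simpa using hζ₀.pow_eq_one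
  have h1 := modularCyclotomicCharacter.spec Qbar (natCard_rootsOfUnity_qbar q)
    (σ : Qbar ≃+* Qbar) hu
  rw [show modularCyclotomicCharacter Qbar (natCard_rootsOfUnity_qbar q) (σ : Qbar ≃+* Qbar) = 1
    from h, Units.val_one, ZMod.val_one_eq_one_mod, ← pow_eq_pow_mod 1 (by simpa using hζ₀.pow_eq_one),
    pow_one] at h1
  rw [map_pow]
  exact congrArg (· ^ i) h1

/-- A splitting of `ρ` on the decomposition group at `P`. -/
structure TWSplit (ρ : GaloisRepAdic A) (P : ValuationSubring Qbar) where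
  /-- the eigenbasis -/
  basis : Module.Basis (Fin 2) A ρ.V
  /-- the two characters -/
  char : Fin 2 → (P.decompositionSubgroup ℚ →* Aˣ)
  apply_basis : ∀ (σ : P.decompositionSubgroup ℚ) (i : Fin 2),
    ρ.ρ σ.1 (basis i) = ((char i σ : Aˣ) : A) • basis i

namespace TWSplit

variable {ρ : GaloisRepAdic A} {P : ValuationSubring Qbar} (s : TWSplit ρ P)

theorem toMatrix_eq (σ : P.decompositionSubgroup ℚ) :
    LinearMap.toMatrix s.basis s.basis (ρ.ρ σ.1) =
      Matrix.diagonal fun i => ((s.char i σ : Aˣ) : A) := by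
  ext i j
  rw [LinearMap.toMatrix_apply, s.apply_basis, map_smul, Finsupp.smul_apply,
    Module.Basis.repr_self, Finsupp.single_apply, Matrix.diagonal_apply]
  rcases eq_or_ne i j with rfl | h
  · simp
  · simp [h, h.symm]

theorem det_eq (σ : P.decompositionSubgroup ℚ) :
    LinearMap.det (ρ.ρ σ.1) = (s.char 0 σ : A) * (s.char 1 σ : A) := by
  rw [← LinearMap.det_toMatrix s.basis, s.toMatrix_eq, Matrix.det_diagonal, Fin.prod_univ_two]

theorem charpoly_eq (σ : P.decompositionSubgroup ℚ) :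
    LinearMap.charpoly (ρ.ρ σ.1) =
      (X - C (s.char 0 σ : A)) * (X - C (s.char 1 σ : A)) := by
  rw [← LinearMap.charpoly_toMatrix _ s.basis, s.toMatrix_eq, Matrix.charpoly_diagonal,
    Fin.prod_univ_two]

theorem ρ_eq_one_iff (σ : P.decompositionSubgroup ℚ) :
    ρ.ρ σ.1 = 1 ↔ s.char 0 σ = 1 ∧ s.char 1 σ = 1 := by
  constructor
  · intro h
    have key : ∀ i, s.char i σ = 1 := fun i => by
      have h1 := congrArg (fun v => s.basis.repr v i) (s.apply_basis σ i)
      simp only [h, Module.End.one_apply, map_smul, Module.Basis.repr_self, Finsupp.smul_apply,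
        Finsupp.single_eq_same, smul_eq_mul, mul_one] at h1
      exact Units.ext h1.symm
    exact ⟨key 0, key 1⟩
  · intro h
    refine s.basis.ext fun i => ?_
    rw [s.apply_basis, Module.End.one_apply]
    fin_cases i
    · simp [h.1]
    · simp [h.2]

/-- Base change of a splitting. -/
def baseChange {B : Type} [CommRing B] [IsLocalRing B] (f : A →+* B) (hf : IsLocalHom f) :
    TWSplit (ρ.baseChangeAlong f hf) P :=
  letI : Algebra A B := f.toAlgebra
  { basis := Algebra.TensorProduct.basis B s.basis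
    char := fun i => (Units.map f.toMonoidHom).comp (s.char i)
    apply_basis := fun σ i => by
      show (ρ.ρ σ.1).baseChange B (Algebra.TensorProduct.basis B s.basis i) =
        (f (s.char i σ : A)) • Algebra.TensorProduct.basis B s.basis i
      rw [Algebra.TensorProduct.basis_apply, LinearMap.baseChange_tmul, s.apply_basis,
        TensorProduct.tmul_smul, ← algebraMap_smul B (s.char i σ : A) ((1 : B) ⊗ₜ[A] s.basis i)]
      rfl }

theorem baseChange_char {B : Type} [CommRing B] [IsLocalRing B] (f : A →+* B) (hf : IsLocalHom f)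
    (i : Fin 2) (σ : P.decompositionSubgroup ℚ) :
    ((s.baseChange f hf).char i σ : B) = f (s.char i σ : A) := rfl

/-- Transport of a splitting along an equivalence. -/
def ofEquiv {ρ' : GaloisRepAdic A} (e : GaloisRepAdic.Equiv ρ ρ') : TWSplit ρ' P where
  basis := s.basis.map e.toLinearEquiv
  char := s.char
  apply_basis σ i := by
    rw [Module.Basis.map_apply, ← e.map_apply, s.apply_basis, map_smul]

@[simp] theorem ofEquiv_char {ρ' : GaloisRepAdic A} (e : GaloisRepAdic.Equiv ρ ρ') :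
    (s.ofEquiv e).char = s.char := rfl

/-- A splitting is determined by the order of the residual Frobenius eigenvalues. -/
theorem char_unique (t : TWSplit ρ P) (φ : P.decompositionSubgroup ℚ)
    (hne : residue A (s.char 0 φ : A) ≠ residue A (s.char 1 φ : A))
    (h0 : residue A (t.char 0 φ : A) = residue A (s.char 0 φ : A))
    (h1 : residue A (t.char 1 φ : A) = residue A (s.char 1 φ : A)) : t.char = s.char := by
  funext i
  have hres : ∀ k, residue A (t.char k φ : A) = residue A (s.char k φ : A) := fun k => by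
    fin_cases k
    · exact h0
    · exact h1
  have hzero : ∀ j, j ≠ i → s.basis.repr (t.basis i) j = 0 := by
    intro j hj
    have h := congrArg (fun v => s.basis.repr v j) (t.apply_basis φ i)
    rw [← s.basis.sum_repr (t.basis i)] at h
    simp only [map_sum, map_smul, s.apply_basis, Finsupp.coe_finsetSum, Finset.sum_apply,
      Finsupp.smul_apply, Module.Basis.repr_self, Finsupp.single_apply, smul_eq_mul, mul_ite,
      mul_one, mul_zero, Finset.sum_ite_eq', Finset.mem_univ, if_true] at h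
    have hu : IsUnit ((s.char j φ : A) - (t.char i φ : A)) := by
      refine isUnit_of_residue_ne_zero ?_
      rw [map_sub, hres, sub_ne_zero]
      fin_cases i <;> fin_cases j <;> first | exact absurd rfl hj | exact hne | exact hne.symm
    refine hu.mul_right_eq_zero.mp ?_
    linear_combination h
  have hline : t.basis i = s.basis.repr (t.basis i) i • s.basis i := by
    conv_lhs => rw [← s.basis.sum_repr (t.basis i)]
    exact Finset.sum_eq_single i (fun j _ hj => by rw [hzero j hj, zero_smul])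
      (fun h => absurd (Finset.mem_univ i) h)
  refine MonoidHom.ext fun σ => Units.ext ?_
  have h := t.apply_basis σ i
  rw [hline, map_smul, s.apply_basis, smul_comm] at h
  rw [← hline] at h
  have h2 := congrArg (fun v => t.basis.repr v i) h
  simpa using h2.symm

end TWSplit

variable [IsAdicComplete (maximalIdeal A) A]
variable (ρ : GaloisRepAdic A) {P : ValuationSubring Qbar} {p q : ℕ}

omit [IsAdicComplete (maximalIdeal A) A] in
/-- The residual representation in matrix form. -/
theorem toMatrix_map_residue (b : Module.Basis (Fin 2) A ρ.V) {σ : GalQ}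
    (h : ρ.residual.ρ σ = 1) :
    (LinearMap.toMatrix b b (ρ.ρ σ)).map (residue A) = 1 := by
  have h1 : (ρ.ρ σ).baseChange (ResidueField A) = LinearMap.id := h
  rw [← ResidueField.algebraMap_eq, ← LinearMap.toMatrix_baseChange, h1, LinearMap.toMatrix_id]

/-- A deformation at a Taylor–Wiles prime splits into two characters on the decomposition group. -/
theorem exists_twSplit (hP : P.LiesOverPrime q) (hq : q.Prime)
    (hp : (p : A) ∈ maximalIdeal A) (hdvd : p ∣ q - 1)
    (hur : ∀ σ ∈ P.inertiaSubgroupIn ℚ, ρ.residual.ρ σ = 1)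
    (φ : P.decompositionSubgroup ℚ) (hφ : P.IsFrobeniusAt φ.1 q)
    {α β : ResidueField A} (hαβ : α ≠ β)
    (hchar : (LinearMap.charpoly (ρ.ρ φ.1)).map (residue A) = (X - C α) * (X - C β)) :
    ∃ s : TWSplit ρ P, residue A (s.char 0 φ : A) = α ∧ residue A (s.char 1 φ : A) = β := by
  classical
  let b₀ := Module.finBasisOfFinrankEq A ρ.V ρ.finrank_eq
  obtain ⟨x₀, x₁, hx₀, hx₁, ht, hd, hu⟩ := exists_eigenvalues
    (LinearMap.toMatrix b₀ b₀ (ρ.ρ φ.1)) hαβ (by rwa [LinearMap.charpoly_toMatrix])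
  obtain ⟨Q, hQ, hMQ⟩ := exists_conj_diag _ ht hd hu
  let e : ρ.V ≃ₗ[A] ρ.V := Matrix.toLinearEquiv b₀ Q hQ
  let b := b₀.map e
  let M : P.decompositionSubgroup ℚ →* Matrix (Fin 2) (Fin 2) A :=
    ((LinearMap.toMatrixAlgEquiv b : Module.End A ρ.V ≃ₐ[A] _).toMonoidHom).comp
      (ρ.ρ.comp (P.decompositionSubgroup ℚ).subtype)
  have hM : ∀ σ, M σ = LinearMap.toMatrix b b (ρ.ρ σ.1) := fun σ => rfl
  set x : Fin 2 → A := ![x₀, x₁] with hx
  have hMφ : M φ = Matrix.diagonal x := by
    have hcomp : ρ.ρ φ.1 ∘ₗ (Matrix.toLin b₀ b₀ Q) =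
        (Matrix.toLin b₀ b₀ Q) ∘ₗ Matrix.toLin b₀ b₀ (Matrix.diagonal x) := by
      rw [← Matrix.toLin_mul b₀ b₀ b₀, ← hMQ, Matrix.toLin_mul b₀ b₀ b₀, Matrix.toLin_toMatrix]
    ext i j
    rw [hM, LinearMap.toMatrix_apply]
    have hb : ∀ k, b k = Matrix.toLin b₀ b₀ Q (b₀ k) := fun k => rfl
    have h := LinearMap.congr_fun hcomp (b₀ j)
    simp only [LinearMap.comp_apply, ← hb] at h
    rw [h, Matrix.toLin_self, map_sum]
    simp only [map_smul, ← hb, map_sum, Finsupp.coe_finsetSum, Finset.sum_apply,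
      Finsupp.smul_apply, Module.Basis.repr_self, Finsupp.single_apply, smul_eq_mul, mul_ite,
      mul_one, mul_zero, Finset.sum_ite_eq', Finset.mem_univ, if_true]
  have hI : ∀ σ : P.decompositionSubgroup ℚ, σ.1 ∈ P.inertiaSubgroupIn ℚ →
      (M σ).map (residue A) = 1 := fun σ hσ => toMatrix_map_residue ρ b (hur _ hσ)
  have hoff : ∀ (n : ℕ) (σ : P.decompositionSubgroup ℚ) (i j : Fin 2), i ≠ j →
      M σ i j ∈ maximalIdeal A ^ n := by
    intro n
    set I := maximalIdeal A ^ n
    obtain ⟨L, hL, hlev⟩ := Density.exists_level_sub_mem ρ n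
    let r : P.decompositionSubgroup ℚ →* (Matrix (Fin 2) (Fin 2) (A ⧸ I))ˣ :=
      ((Ideal.Quotient.mk I).mapMatrix.toMonoidHom.comp M).toHomUnits
    have hr' : ∀ σ, ((r σ : (Matrix (Fin 2) (Fin 2) (A ⧸ I))ˣ) : Matrix (Fin 2) (Fin 2) (A ⧸ I)) =
        (M σ).map (Ideal.Quotient.mk I) := fun σ => rfl
    have hr : ∀ σ : P.decompositionSubgroup ℚ, (∀ y ∈ L, σ.1 y = y) → r σ = 1 := by
      intro σ hσ
      refine Units.ext ?_
      rw [hr', Units.val_one]
      have hv := hlev σ.1 1 (fun y hy => by rw [hσ y hy, AlgEquiv.one_apply])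
      ext i j
      rw [Matrix.map_apply, hM, LinearMap.toMatrix_apply]
      have h1 : b.repr (ρ.ρ σ.1 (b j) - b j) i ∈ I := by
        have hw := hv (b j)
        rw [map_one, Module.End.one_apply] at hw
        refine Submodule.smul_induction_on hw (fun a ha w _ => ?_) fun y z hy hz => ?_
        · rw [map_smul, Finsupp.smul_apply, smul_eq_mul]
          exact I.mul_mem_right _ ha
        · rw [map_add, Finsupp.add_apply]
          exact I.add_mem hy hz
      rw [map_sub, Finsupp.sub_apply, ← Ideal.Quotient.eq, Module.Basis.repr_self] at h1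
      rw [h1, Finsupp.single_apply, Matrix.one_apply]
      rcases eq_or_ne i j with rfl | h
      · simp
      · simp [h, h.symm]
    have htors : ∀ σ : P.decompositionSubgroup ℚ, σ.1 ∈ P.inertiaSubgroupIn ℚ →
        ∀ k : ℕ, r σ ^ q ^ k = 1 → r σ = 1 := by
      intro σ hσ k hk
      refine Units.ext ?_
      have hk' := congrArg Units.val hk
      rw [Units.val_pow_eq_pow_val, hr', Units.val_one] at hk'
      rw [hr', Units.val_one]
      refine map_mk_eq_one_of_pow (hI σ hσ) ?_ hk'
      rw [Nat.cast_pow, ← residue_eq_zero_iff, map_pow,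
        residue_natCast_of_pred_dvd hp hq.ne_zero hdvd, one_pow]
      exact one_ne_zero
    obtain ⟨τ, hτI, hgen, hrel⟩ := exists_tame_generator hP hq r L hr htors
    have h3 : (M φ * M τ).map (Ideal.Quotient.mk I) =
        (M τ ^ q * M φ).map (Ideal.Quotient.mk I) := by
      have h := congrArg Units.val (mul_inv_eq_iff_eq_mul.mp (hrel φ hφ).1)
      rw [Units.val_mul, Units.val_mul, Units.val_pow_eq_pow_val, hr', hr'] at h
      simp only [← RingHom.mapMatrix_apply] at h ⊢
      rw [map_mul, map_mul, map_pow, h]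
    rw [hMφ] at h3
    have hxres : residue A (x 0) ≠ residue A (x 1) := by simpa [hx, hx₀, hx₁] using hαβ
    have hτdiag : ∀ i j : Fin 2, i ≠ j → M τ i j ∈ I := fun i j hij =>
      offdiag_mem_of_relation (hI τ hτI) (residue_natCast_of_pred_dvd hp hq.ne_zero hdvd)
        hxres h3 hij
    -- the diagonal matrices modulo `I` form a subgroup containing the image
    let Dg : Subgroup (Matrix (Fin 2) (Fin 2) (A ⧸ I))ˣ :=
      { carrier := {u | (u : Matrix (Fin 2) (Fin 2) (A ⧸ I)).IsDiag ∧
          ((u⁻¹ : (Matrix (Fin 2) (Fin 2) (A ⧸ I))ˣ) : Matrix (Fin 2) (Fin 2) (A ⧸ I)).IsDiag}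
        mul_mem' := fun {a c} ha hc => by
          refine ⟨?_, ?_⟩
          · rw [Units.val_mul, ← ha.1.diagonal_diag, ← hc.1.diagonal_diag,
              Matrix.diagonal_mul_diagonal]
            exact Matrix.isDiag_diagonal _
          · rw [mul_inv_rev, Units.val_mul, ← ha.2.diagonal_diag, ← hc.2.diagonal_diag,
              Matrix.diagonal_mul_diagonal]
            exact Matrix.isDiag_diagonal _
        one_mem' := by simp [Matrix.isDiag_one]
        inv_mem' := fun {a} ha => ⟨ha.2, by rw [inv_inv]; exact ha.1⟩ }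
    have hmemDg : ∀ σ : P.decompositionSubgroup ℚ,
        (∀ i j : Fin 2, i ≠ j → M σ i j ∈ I) → r σ ∈ Dg := by
      intro σ hσ
      have hd : ((r σ : (Matrix (Fin 2) (Fin 2) (A ⧸ I))ˣ) :
          Matrix (Fin 2) (Fin 2) (A ⧸ I)).IsDiag := fun i j hij => by
        change ((r σ : (Matrix (Fin 2) (Fin 2) (A ⧸ I))ˣ) : Matrix (Fin 2) (Fin 2) (A ⧸ I)) i j = 0
        rw [hr', Matrix.map_apply, Ideal.Quotient.eq_zero_iff_mem]
        exact hσ i j hij
      refine ⟨hd, ?_⟩
      intro i j hij
      have h1 := congrArg Units.val (mul_inv_cancel (r σ))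
      rw [Units.val_mul, ← hd.diagonal_diag, Units.val_one] at h1
      have h2 := congrFun (congrFun h1 i) j
      rw [Matrix.diagonal_mul, Matrix.one_apply_ne hij] at h2
      have hunit : IsUnit (Matrix.diag ((r σ : (Matrix (Fin 2) (Fin 2) (A ⧸ I))ˣ) :
          Matrix (Fin 2) (Fin 2) (A ⧸ I)) i) := by
        have h3 := congrFun (congrFun h1 i) i
        rw [Matrix.diagonal_mul, Matrix.one_apply_eq] at h3
        exact IsUnit.of_mul_eq_one _ h3
      exact hunit.mul_right_eq_zero.mp h2
    intro σ i j hij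
    obtain ⟨k, ι, hι, hfix⟩ := exists_pow_inertia_fixing hP hq L hφ σ.2
    let ι' : P.decompositionSubgroup ℚ := ⟨ι, inertia_le_decomposition P hι⟩
    have hrσ : r σ = r φ ^ k * r ι' := by
      have h1 : r ((φ ^ k * ι')⁻¹ * σ) = 1 := hr _ fun y hy => by
        exact (IntermediateField.mem_fixingSubgroup_iff _ _).mp hfix y hy
      rw [map_mul, map_inv, inv_mul_eq_one] at h1
      rw [← h1, map_mul, map_pow]
    have hmem : r σ ∈ Dg := by
      rw [hrσ]
      refine Dg.mul_mem (Dg.pow_mem (hmemDg φ fun i j h => ?_) k)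
        (Subgroup.zpowers_le.mpr (hmemDg τ hτdiag) (hgen ι' hι))
      rw [hMφ, Matrix.diagonal_apply_ne _ h]
      exact zero_mem _
    have h : ((r σ : (Matrix (Fin 2) (Fin 2) (A ⧸ I))ˣ) : Matrix (Fin 2) (Fin 2) (A ⧸ I)) i j = 0 :=
      hmem.1 hij
    rwa [hr', Matrix.map_apply, Ideal.Quotient.eq_zero_iff_mem] at h
  have hdiag : ∀ σ, M σ = Matrix.diagonal fun i => M σ i i := fun σ => by
    ext i j
    rcases eq_or_ne i j with rfl | h
    · rw [Matrix.diagonal_apply_eq]
    · rw [Matrix.diagonal_apply_ne _ h]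
      exact mem_iInf_pow fun n => hoff n σ i j h
  let χ : Fin 2 → (P.decompositionSubgroup ℚ →* A) := fun i =>
    { toFun := fun σ => M σ i i
      map_one' := by rw [map_one, Matrix.one_apply_eq]
      map_mul' := fun σ τ => by
        rw [map_mul, hdiag σ, hdiag τ, Matrix.diagonal_mul_diagonal, Matrix.diagonal_apply_eq,
          Matrix.diagonal_apply_eq, Matrix.diagonal_apply_eq] }
  have hχ : ∀ i σ, (χ i).toHomUnits σ = (χ i).toHomUnits σ := fun _ _ => rfl
  refine ⟨{ basis := b, char := fun i => (χ i).toHomUnits, apply_basis := fun σ i => ?_ }, ?_, ?_⟩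
  · apply b.repr.injective
    rw [map_smul, Module.Basis.repr_self]
    ext j
    rw [← LinearMap.toMatrix_apply b b, ← hM, hdiag, Finsupp.smul_apply, Finsupp.single_apply,
      Matrix.diagonal_apply]
    rcases eq_or_ne j i with rfl | h
    · simp [χ]
    · simp [h, h.symm]
  · change residue A (M φ 0 0) = α
    rw [hMφ, Matrix.diagonal_apply_eq]
    exact hx₀
  · change residue A (M φ 1 1) = β
    rw [hMφ, Matrix.diagonal_apply_eq]
    exact hx₁

/-- On inertia, the characters of a splitting are trivial on elements fixing `μ_q`. -/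
theorem TWSplit.char_eq_one {ρ : GaloisRepAdic A} (s : TWSplit ρ P) (hP : P.LiesOverPrime q)
    (hq : q.Prime) (hp : (p : A) ∈ maximalIdeal A) (hdvd : p ∣ q - 1)
    (hur : ∀ σ ∈ P.inertiaSubgroupIn ℚ, ρ.residual.ρ σ = 1) (i : Fin 2)
    (σ : P.decompositionSubgroup ℚ) (hσ : σ.1 ∈ P.inertiaSubgroupIn ℚ)
    (hfix : ∀ ζ : Qbar, ζ ^ q = 1 → σ.1 ζ = ζ) : s.char i σ = 1 := by
  refine Units.ext (sub_eq_zero.mp (mem_iInf_pow fun n => ?_))
  set I := maximalIdeal A ^ n
  obtain ⟨L, hL, hlev⟩ := Density.exists_level_sub_mem ρ n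
  let r : P.decompositionSubgroup ℚ →* (A ⧸ I)ˣ :=
    (Units.map (Ideal.Quotient.mk I).toMonoidHom).comp (s.char i)
  have hr : ∀ τ : P.decompositionSubgroup ℚ, (∀ y ∈ L, τ.1 y = y) → r τ = 1 := by
    intro τ hτ
    refine Units.ext ?_
    change Ideal.Quotient.mk I (s.char i τ : A) = 1
    rw [← map_one (Ideal.Quotient.mk I), Ideal.Quotient.eq]
    have hv := hlev τ.1 1 (fun y hy => by rw [hτ y hy, AlgEquiv.one_apply]) (s.basis i)
    rw [map_one, Module.End.one_apply, s.apply_basis] at hv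
    have : s.basis.repr (((s.char i τ : A) • s.basis i) - s.basis i) i ∈ I := by
      refine Submodule.smul_induction_on hv (fun a ha w _ => ?_) fun y z hy hz => ?_
      · rw [map_smul, Finsupp.smul_apply, smul_eq_mul]
        exact I.mul_mem_right _ ha
      · rw [map_add, Finsupp.add_apply]
        exact I.add_mem hy hz
    simpa using this
  have hres : ∀ τ : P.decompositionSubgroup ℚ, τ.1 ∈ P.inertiaSubgroupIn ℚ →
      residue A (s.char i τ : A) = 1 := fun τ hτ => by
    have h := congrFun (congrFun (toMatrix_map_residue ρ s.basis (hur _ hτ)) i) i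
    rwa [Matrix.map_apply, s.toMatrix_eq, Matrix.diagonal_apply_eq, Matrix.one_apply_eq] at h
  have htors : ∀ τ : P.decompositionSubgroup ℚ, τ.1 ∈ P.inertiaSubgroupIn ℚ →
      ∀ k : ℕ, r τ ^ q ^ k = 1 → r τ = 1 := by
    intro τ hτ k hk
    refine Units.ext ?_
    have hk' := congrArg Units.val hk
    rw [Units.val_pow_eq_pow_val] at hk'
    change Ideal.Quotient.mk I (s.char i τ : A) ^ q ^ k = 1 at hk'
    change Ideal.Quotient.mk I (s.char i τ : A) = 1
    rw [← map_pow, ← map_one (Ideal.Quotient.mk I), Ideal.Quotient.eq] at hk'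
    rw [← map_one (Ideal.Quotient.mk I), Ideal.Quotient.eq]
    refine sub_one_mem_of_pow (hres τ hτ) ?_ hk'
    rw [Nat.cast_pow, ← residue_eq_zero_iff, map_pow,
      residue_natCast_of_pred_dvd hp hq.ne_zero hdvd, one_pow]
    exact one_ne_zero
  obtain ⟨τ₀, -, -, hrel⟩ := exists_tame_generator hP hq r L hr htors
  obtain ⟨φ, hφ⟩ := exists_isFrobeniusAt hP hq
  have h1 := ((hrel ⟨φ, hφ.mem_decompositionSubgroup⟩ hφ).2 (mul_comm _ _)).2 σ hσ hfix
  have h2 := congrArg Units.val h1
  change Ideal.Quotient.mk I (s.char i σ : A) = 1 at h2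
  rw [← map_one (Ideal.Quotient.mk I), Ideal.Quotient.eq] at h2
  simpa using h2

/-- **Inertia acts through `(ℤ/q)ˣ`**: the diamond character of a splitting. -/
theorem TWSplit.exists_inertiaHom [NeZero q] {ρ : GaloisRepAdic A} (s : TWSplit ρ P)
    (hP : P.LiesOverPrime q) (hq : q.Prime) (hpp : p.Prime) (hp : (p : A) ∈ maximalIdeal A)
    (hdvd : p ∣ q - 1) (hur : ∀ σ ∈ P.inertiaSubgroupIn ℚ, ρ.residual.ρ σ = 1) (i : Fin 2) :
    ∃ δ : (ZMod q)ˣ →* Aˣ,
      (∀ (σ : P.decompositionSubgroup ℚ), σ.1 ∈ P.inertiaSubgroupIn ℚ →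
        s.char i σ = δ (cycMod q σ.1)) ∧
      (∀ u, δ u ^ p ^ padicValNat p (q - 1) = 1) ∧ ∀ u, residue A (δ u : A) = 1 := by
  choose f hfI hf using fun u => cycMod_surjOn_inertia hP hq u
  let g : (ZMod q)ˣ → P.decompositionSubgroup ℚ := fun u =>
    ⟨f u, inertia_le_decomposition P (hfI u)⟩
  have key : ∀ σ τ : P.decompositionSubgroup ℚ, σ.1 ∈ P.inertiaSubgroupIn ℚ →
      τ.1 ∈ P.inertiaSubgroupIn ℚ → cycMod q σ.1 = cycMod q τ.1 → s.char i σ = s.char i τ := by
    intro σ τ hσ hτ h
    have h1 := s.char_eq_one hP hq hp hdvd hur i (σ⁻¹ * τ) (mul_mem (inv_mem hσ) hτ)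
      fun ζ hζ => apply_eq_self_of_cycMod (by
        change cycMod q (σ.1⁻¹ * τ.1) = 1
        rw [map_mul, map_inv, h, inv_mul_cancel]) hζ
    rwa [map_mul, map_inv, inv_mul_eq_one] at h1
  let δ : (ZMod q)ˣ →* Aˣ := MonoidHom.mk' (fun u => s.char i (g u)) fun u v => by
    rw [← map_mul]
    exact key _ _ (hfI _) (mul_mem (hfI u) (hfI v)) (by
      change cycMod q (f (u * v)) = cycMod q (f u * f v)
      rw [map_mul, hf, hf, hf])
  have hδres : ∀ u, residue A (δ u : A) = 1 := fun u => by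
    have h := congrFun (congrFun (toMatrix_map_residue ρ s.basis (hur _ (hfI u))) i) i
    rwa [show f u = (g u).1 from rfl, Matrix.map_apply, s.toMatrix_eq, Matrix.diagonal_apply_eq,
      Matrix.one_apply_eq] at h
  refine ⟨δ, fun σ hσ => key σ (g _) hσ (hfI _) (hf _).symm, fun u => ?_, hδres⟩
  have := Fact.mk hq
  obtain ⟨m, hm⟩ := pow_padicValNat_dvd (p := p) (n := q - 1)
  have hq1 : q - 1 ≠ 0 := by have := hq.two_le; omega
  have hmp : ¬ p ∣ m := by
    rintro ⟨c, rfl⟩
    have hd : p ^ (padicValNat p (q - 1) + 1) ∣ q - 1 := ⟨c, hm.trans (by ring)⟩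
    have := (padicValNat_dvd_iff_le (hp := Fact.mk hpp) hq1).mp hd
    omega
  have hmA : (m : A) ∉ maximalIdeal A := by
    intro h
    obtain ⟨a, b, hab⟩ := ((Nat.Prime.coprime_iff_not_dvd hpp).mpr hmp |>
      Nat.isCoprime_iff_coprime.mpr).map (Int.castRingHom A)
    simp only [eq_intCast, Int.cast_natCast] at hab
    exact (maximalIdeal.isMaximal A).ne_top ((Ideal.eq_top_iff_one _).mpr
      (hab ▸ add_mem (Ideal.mul_mem_left _ _ hp) (Ideal.mul_mem_left _ _ h)))
  have h1 : (δ u ^ p ^ padicValNat p (q - 1)) ^ m = 1 := by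
    rw [← pow_mul, ← hm, ← map_pow, ZMod.units_pow_card_sub_one_eq_one, map_one]
  refine Units.ext (sub_eq_zero.mp ?_)
  have h2 := sub_one_mem_of_pow (I := (⊥ : Ideal A))
    (x := ((δ u ^ p ^ padicValNat p (q - 1) : Aˣ) : A)) (m := m)
    (by rw [Units.val_pow_eq_pow_val, map_pow, hδres, one_pow]) hmA
    (by rw [Ideal.mem_bot, ← Units.val_pow_eq_pow_val, h1, Units.val_one, sub_self])
  simpa using h2

omit [IsAdicComplete (maximalIdeal A) A] in
/-- For cyclotomic determinant, the two characters are inverse to each other on inertia. -/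
theorem TWSplit.char_mul_char_eq_one [IsHausdorff (maximalIdeal A) A] {ρ : GaloisRepAdic A}
    (s : TWSplit ρ P) (hP : P.LiesOverPrime q) (hq : q.Prime) (hpp : p.Prime) (hpq : q ≠ p)
    (hdet : ρ.DetIsCyclotomic p) (σ : P.decompositionSubgroup ℚ)
    (hσ : σ.1 ∈ P.inertiaSubgroupIn ℚ) : s.char 0 σ * s.char 1 σ = 1 := by
  refine Units.ext (sub_eq_zero.mp (mem_iInf_pow fun n => ?_))
  have h := hdet.2 n σ.1 1 fun μ hμ => by
    rw [pow_one]
    exact inertia_apply_rootOfUnity hP hq hσ
      (fun hd => hpq ((Nat.prime_dvd_prime_iff_eq hq hpp).mp (hq.dvd_of_dvd_pow hd))) hμ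
  rw [s.det_eq, Nat.cast_one] at h
  rw [Units.val_mul, Units.val_one]
  refine Ideal.span_le.mpr ?_ h
  rw [Set.singleton_subset_iff, SetLike.mem_coe, Nat.cast_pow]
  exact Ideal.pow_mem_pow hdet.1 n

end Fermat.Agent.TWGal
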